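/-
Lib/FrobDensity : the Frobenius density theorem (existence form), without class field theory.
Common definitions.  Owner: helper82.
-/
import Mathlib
import Fermat.Agent.S14.AN.Defs

set_option autoImplicit false

namespace Fermat.Agent.FD

open NumberField IsDedekindDomain
open scoped NumberField
open Fermat.Agent.S14.AN (pnrm)

/-- `f` and `g` differ by a bounded function on `(1,2]`. -/
def BddDiff (f g : ℝ → ℝ) : Prop := ∃ B : ℝ, ∀ s : ℝ, 1 < s → s ≤ 2 → |f s - g s| ≤ B

/-- `log (1/(s-1))`. -/
noncomputable def lg (s : ℝ) : ℝ := -Real.log (s - 1)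

section

variable (F : Type) [Field F] [NumberField F]

/-- The primes of absolute degree one. -/
def P1 : Set (HeightOneSpectrum (𝓞 F)) := {v | (Ideal.absNorm v.asIdeal).Prime}

/-- `∑_{v ∈ S} N(v)^(-s)`. -/
noncomputable def psum (S : Set (HeightOneSpectrum (𝓞 F))) (s : ℝ) : ℝ :=
  ∑' v, S.indicator (pnrm F s) v

end

section

variable (F M : Type) [Field F] [NumberField F] [Field M] [NumberField M] [Algebra F M]

/-- The number of primes of `M` above the prime `v` of `F`. -/
noncomputable def gNum (v : HeightOneSpectrum (𝓞 F)) : ℕ := (v.asIdeal.primesOver (𝓞 M)).ncard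

/-- The primes of `F` of absolute degree one which split completely in `M`. -/
def Spl : Set (HeightOneSpectrum (𝓞 F)) := {v | v ∈ P1 F ∧ gNum F M v = Module.finrank F M}

/-- The primes of `F` of absolute degree one such that `d` divides the number of primes above. -/
def Dv (d : ℕ) : Set (HeightOneSpectrum (𝓞 F)) := {v | v ∈ P1 F ∧ d ∣ gNum F M v}

end

end Fermat.Agent.FD
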