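/-
FD / M2a : the fibres of `Spec 𝓞 M → Spec 𝓞 F` over completely split primes (algebra only).
-/
import Fermat.Agent.Lib.FrobDensity.Defs

set_option autoImplicit false
set_option linter.unusedSectionVars false

namespace Fermat.Agent.FD

open NumberField IsDedekindDomain
open scoped NumberField

variable (F M : Type) [Field F] [NumberField F] [Field M] [NumberField M] [Algebra F M]

/-- `w ↦ w.asIdeal` maps the fibre over `v` bijectively onto the primes over `v`. -/
theorem fiberAlg_bijOn (v : HeightOneSpectrum (𝓞 F)) :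
    Set.BijOn HeightOneSpectrum.asIdeal {w : HeightOneSpectrum (𝓞 M) | w.under (𝓞 F) = v}
      (v.asIdeal.primesOver (𝓞 M)) := by
  refine ⟨fun w hw => ⟨w.isPrime, ⟨?_⟩⟩, fun _ _ _ _ h => HeightOneSpectrum.ext_iff.mpr h,
    fun Q hQ => ?_⟩
  · simp only [Set.mem_ofPred_eq] at hw
    rw [← hw]; rfl
  · refine ⟨⟨Q, hQ.1, Ideal.ne_bot_of_mem_primesOver v.ne_bot hQ⟩, ?_, rfl⟩
    simp only [Set.mem_ofPred_eq]
    apply HeightOneSpectrum.ext
    exact (hQ.2.over).symm

/-- the fibre of `w ↦ w ∩ 𝓞 F` has `gNum` elements -/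
theorem ncard_fiber (v : HeightOneSpectrum (𝓞 F)) :
    {w : HeightOneSpectrum (𝓞 M) | w.under (𝓞 F) = v}.ncard = gNum F M v := by
  have h := fiberAlg_bijOn F M v
  rw [gNum, ← h.image_eq, Set.InjOn.ncard_image h.injOn]

theorem finite_fiber (v : HeightOneSpectrum (𝓞 F)) :
    {w : HeightOneSpectrum (𝓞 M) | w.under (𝓞 F) = v}.Finite := by
  have h := fiberAlg_bijOn F M v
  have hf : (v.asIdeal.primesOver (𝓞 M)).Finite := IsDedekindDomain.primesOver_finite _ _
  rw [← h.image_eq] at hf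
  exact hf.of_finite_image h.injOn

variable [IsGalois F M]

/-- the fundamental identity `g * (e * f) = n`. -/
theorem fiberAlg_efg (w : HeightOneSpectrum (𝓞 M)) :
    gNum F M (w.under (𝓞 F)) *
      (w.asIdeal.ramificationIdx (𝓞 F) * w.asIdeal.inertiaDeg (𝓞 F)) = Module.finrank F M := by
  have hP : w.asIdeal.IsPrime := w.isPrime
  have hp : (w.under (𝓞 F)).asIdeal.IsPrime := (w.under (𝓞 F)).isPrime
  have hl : w.asIdeal.LiesOver (w.under (𝓞 F)).asIdeal := ⟨rfl⟩
  have h := Ideal.ncard_primesOver_mul_ramificationIdxIn_mul_inertiaDegIn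
    (w.under (𝓞 F)).asIdeal (𝓞 M) Gal(M/F)
  rw [Ideal.ramificationIdxIn_eq_ramificationIdx (w.under (𝓞 F)).asIdeal w.asIdeal Gal(M/F),
    Ideal.inertiaDegIn_eq_inertiaDeg (w.under (𝓞 F)).asIdeal w.asIdeal Gal(M/F),
    IsGalois.card_aut_eq_finrank] at h
  exact h

theorem gNum_dvd (v : HeightOneSpectrum (𝓞 F)) : gNum F M v ∣ Module.finrank F M := by
  have hp : v.asIdeal.IsPrime := v.isPrime
  have h := Ideal.ncard_primesOver_mul_ramificationIdxIn_mul_inertiaDegIn
    v.asIdeal (𝓞 M) Gal(M/F)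
  rw [IsGalois.card_aut_eq_finrank] at h
  exact ⟨_, h.symm⟩

/-- `N(w) = N(v)^f`. -/
theorem fiberAlg_absNorm (w : HeightOneSpectrum (𝓞 M)) :
    Ideal.absNorm w.asIdeal =
      Ideal.absNorm (w.under (𝓞 F)).asIdeal ^ w.asIdeal.inertiaDeg (𝓞 F) := by
  have hP : w.asIdeal.IsPrime := w.isPrime
  have hPm : w.asIdeal.IsMaximal := w.isMaximal
  have hp : (w.under (𝓞 F)).asIdeal.IsPrime := (w.under (𝓞 F)).isPrime
  have hpm : (w.under (𝓞 F)).asIdeal.IsMaximal := (w.under (𝓞 F)).isMaximal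
  have hl : w.asIdeal.LiesOver (w.under (𝓞 F)).asIdeal := ⟨rfl⟩
  rw [Ideal.absNorm_eq_pow_inertiaDeg'_of_liesOver w.asIdeal (w.under (𝓞 F)).asIdeal hp
    (w.under (𝓞 F)).ne_bot, Ideal.inertiaDeg'_eq_inertiaDeg]

theorem fiberAlg_finrank_pos : 0 < Module.finrank F M := Module.finrank_pos

/-- over a completely split prime the norm is preserved -/
theorem absNorm_eq_of_under_mem_Spl (w : HeightOneSpectrum (𝓞 M))
    (hw : w.under (𝓞 F) ∈ Spl F M) :
    Ideal.absNorm w.asIdeal = Ideal.absNorm (w.under (𝓞 F)).asIdeal := by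
  have h := fiberAlg_efg F M w
  rw [hw.2] at h
  have h1 : w.asIdeal.ramificationIdx (𝓞 F) * w.asIdeal.inertiaDeg (𝓞 F) = 1 :=
    Nat.eq_of_mul_eq_mul_left (fiberAlg_finrank_pos F M) (by rw [h, mul_one])
  rw [fiberAlg_absNorm F M w, Nat.eq_one_of_mul_eq_one_left h1, pow_one]

theorem fiberAlg_ramificationIdx (w : HeightOneSpectrum (𝓞 M))
    (hd : ¬ w.asIdeal ∣ differentIdeal (𝓞 F) (𝓞 M)) :
    w.asIdeal.ramificationIdx (𝓞 F) = 1 := by
  have hP : w.asIdeal.IsPrime := w.isPrime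
  have := (not_dvd_differentIdeal_iff (A := 𝓞 F) (B := 𝓞 M) (P := w.asIdeal)).mp hd
  exact Ideal.ramificationIdx_eq_one_of_isUnramifiedAt

/-- an unramified prime of absolute degree one lies over a completely split prime of absolute
degree one -/
theorem under_mem_Spl (w : HeightOneSpectrum (𝓞 M)) (hw : w ∈ P1 M)
    (hd : ¬ w.asIdeal ∣ differentIdeal (𝓞 F) (𝓞 M)) : w.under (𝓞 F) ∈ Spl F M := by
  have hN := fiberAlg_absNorm F M w
  have hpr : (Ideal.absNorm w.asIdeal).Prime := hw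
  rw [hN] at hpr
  have hf : w.asIdeal.inertiaDeg (𝓞 F) = 1 := (Nat.Prime.eq_one_of_pow hpr)
  have h := fiberAlg_efg F M w
  rw [fiberAlg_ramificationIdx F M w hd, hf, mul_one, mul_one] at h
  refine ⟨?_, h⟩
  rw [hf, pow_one] at hpr
  exact hpr

/-- if there is only one prime `w` above `v` and it is unramified then `N(w) = N(v)^[M:F]`. -/
theorem absNorm_eq_pow_of_gNum_eq_one (w : HeightOneSpectrum (𝓞 M))
    (hg : gNum F M (w.under (𝓞 F)) = 1)
    (hd : ¬ w.asIdeal ∣ differentIdeal (𝓞 F) (𝓞 M)) :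
    Ideal.absNorm w.asIdeal = Ideal.absNorm (w.under (𝓞 F)).asIdeal ^ Module.finrank F M := by
  have h := fiberAlg_efg F M w
  rw [fiberAlg_ramificationIdx F M w hd, hg, one_mul, one_mul] at h
  rw [fiberAlg_absNorm F M w, h]

end Fermat.Agent.FD
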