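import Fermat.Agent.Lib.FrobDensity.Defs

set_option autoImplicit false

namespace Fermat.Agent.FD

theorem BddDiff.refl (f : ℝ → ℝ) : BddDiff f f := ⟨0, fun s _ _ => by simp⟩

theorem BddDiff.symm {f g : ℝ → ℝ} (h : BddDiff f g) : BddDiff g f := by
  obtain ⟨B, hB⟩ := h
  exact ⟨B, fun s h1 h2 => by rw [abs_sub_comm]; exact hB s h1 h2⟩

theorem BddDiff.trans {f g h : ℝ → ℝ} (h1 : BddDiff f g) (h2 : BddDiff g h) : BddDiff f h := by
  obtain ⟨B, hB⟩ := h1
  obtain ⟨C, hC⟩ := h2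
  refine ⟨B + C, fun s hs1 hs2 => ?_⟩
  have := abs_sub_le (f s) (g s) (h s)
  linarith [hB s hs1 hs2, hC s hs1 hs2]

theorem BddDiff.add {f g f' g' : ℝ → ℝ} (h1 : BddDiff f g) (h2 : BddDiff f' g') :
    BddDiff (fun s => f s + f' s) (fun s => g s + g' s) := by
  obtain ⟨B, hB⟩ := h1
  obtain ⟨C, hC⟩ := h2
  refine ⟨B + C, fun s hs1 hs2 => ?_⟩
  have e : f s + f' s - (g s + g' s) = (f s - g s) + (f' s - g' s) := by ring
  rw [e]
  exact (abs_add_le _ _).trans (add_le_add (hB s hs1 hs2) (hC s hs1 hs2))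

theorem BddDiff.const_mul {f g : ℝ → ℝ} (c : ℝ) (h : BddDiff f g) :
    BddDiff (fun s => c * f s) (fun s => c * g s) := by
  obtain ⟨B, hB⟩ := h
  refine ⟨|c| * B, fun s hs1 hs2 => ?_⟩
  rw [← mul_sub, abs_mul]
  exact mul_le_mul_of_nonneg_left (hB s hs1 hs2) (abs_nonneg c)

theorem BddDiff.sum {ι : Type*} (A : Finset ι) {f g : ι → ℝ → ℝ}
    (h : ∀ i ∈ A, BddDiff (f i) (g i)) :
    BddDiff (fun s => ∑ i ∈ A, f i s) (fun s => ∑ i ∈ A, g i s) := by
  classical
  induction A using Finset.induction_on with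
  | empty => simpa using BddDiff.refl (fun _ => 0)
  | insert a A ha ih =>
    have h1 := h a (Finset.mem_insert_self a A)
    have h2 := ih (fun i hi => h i (Finset.mem_insert_of_mem hi))
    simpa [Finset.sum_insert ha] using h1.add h2

theorem BddDiff.congr {f g f' g' : ℝ → ℝ} (h : BddDiff f g)
    (hf : ∀ s, 1 < s → s ≤ 2 → f s = f' s) (hg : ∀ s, 1 < s → s ≤ 2 → g s = g' s) :
    BddDiff f' g' := by
  obtain ⟨B, hB⟩ := h
  exact ⟨B, fun s h1 h2 => by rw [← hf s h1 h2, ← hg s h1 h2]; exact hB s h1 h2⟩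

/-- `c * lg` is not bounded above on `(1,2]` if `c > 0`. -/
theorem not_bddDiff_lg {c : ℝ} (hc : 0 < c) (C : ℝ) : ∃ s : ℝ, 1 < s ∧ s ≤ 2 ∧ C < c * lg s := by
  refine ⟨1 + min 1 (Real.exp (-(|C| / c + 1))), ?_, ?_, ?_⟩
  · have := lt_min one_pos (Real.exp_pos (-(|C| / c + 1)))
    linarith
  · have := min_le_left 1 (Real.exp (-(|C| / c + 1)))
    linarith
  · have h0 : 0 < min 1 (Real.exp (-(|C| / c + 1))) := lt_min one_pos (Real.exp_pos _)
    have h1 : Real.log (min 1 (Real.exp (-(|C| / c + 1)))) ≤ -(|C| / c + 1) := by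
      rw [Real.log_le_iff_le_exp h0]
      exact min_le_right _ _
    unfold lg
    rw [add_sub_cancel_left]
    have h2 : |C| / c + 1 ≤ -Real.log (min 1 (Real.exp (-(|C| / c + 1)))) := by linarith
    have h3 : c * (|C| / c + 1) ≤ c * -Real.log (min 1 (Real.exp (-(|C| / c + 1)))) :=
      mul_le_mul_of_nonneg_left h2 hc.le
    have h4 : c * (|C| / c + 1) = |C| + c := by field_simp
    have := le_abs_self C
    linarith

end Fermat.Agent.FD
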