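/-
FD / M1 : prime sums.  `psum F S s = ∑_{v ∈ S} N(v)^(-s)`.
-/
import Fermat.Agent.Lib.FrobDensity.BddDiff
import Fermat.Agent.S14.AN.Basic
import Fermat.Agent.S14.AN.Euler
import Fermat.Agent.S14.AN.PrimeSums

set_option autoImplicit false

namespace Fermat.Agent.FD

open NumberField IsDedekindDomain
open scoped NumberField
open Fermat.Agent.S14.AN (pnrm)

variable (F : Type) [Field F] [NumberField F]

theorem summable_pnrm {s : ℝ} (hs : 1 < s) : Summable (pnrm F s) :=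
  (S14.AN.summable_nrm F hs).comp_injective (S14.AN.PrimeSums.toIdl_injective F)

theorem summable_indicator (S : Set (HeightOneSpectrum (𝓞 F))) {s : ℝ} (hs : 1 < s) :
    Summable (S.indicator (pnrm F s)) :=
  (summable_pnrm F hs).indicator S

theorem indicator_pnrm_nonneg (S : Set (HeightOneSpectrum (𝓞 F))) (s : ℝ)
    (v : HeightOneSpectrum (𝓞 F)) : 0 ≤ S.indicator (pnrm F s) v :=
  Set.indicator_nonneg (fun v _ => S14.AN.PrimeSums.pnrm_nonneg F s v) v

theorem psum_nonneg (S : Set (HeightOneSpectrum (𝓞 F))) (s : ℝ) : 0 ≤ psum F S s :=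
  tsum_nonneg (indicator_pnrm_nonneg F S s)

theorem psum_mono {S S' : Set (HeightOneSpectrum (𝓞 F))} (h : S ⊆ S') {s : ℝ} (hs : 1 < s) :
    psum F S s ≤ psum F S' s :=
  (summable_indicator F S hs).tsum_le_tsum
    (fun v => Set.indicator_le_indicator_of_subset h
      (fun v => S14.AN.PrimeSums.pnrm_nonneg F s v) v)
    (summable_indicator F S' hs)

/-- a bound for all finite partial sums bounds `psum`. -/
theorem psum_le_of_finset (S : Set (HeightOneSpectrum (𝓞 F))) (s C : ℝ)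
    (h : ∀ T : Finset (HeightOneSpectrum (𝓞 F)), (∀ v ∈ T, v ∈ S) → ∑ v ∈ T, pnrm F s v ≤ C) :
    psum F S s ≤ C := by
  classical
  refine Real.tsum_le_of_sum_le (indicator_pnrm_nonneg F S s) fun T => ?_
  have h1 := h (T.filter (· ∈ S)) (fun v hv => (Finset.mem_filter.mp hv).2)
  rw [Finset.sum_filter] at h1
  refine le_trans (le_of_eq (Finset.sum_congr rfl fun v _ => ?_)) h1
  simp only [Set.indicator_apply]

theorem sum_le_psum (S : Set (HeightOneSpectrum (𝓞 F))) {s : ℝ} (hs : 1 < s)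
    (T : Finset (HeightOneSpectrum (𝓞 F))) (hT : ∀ v ∈ T, v ∈ S) :
    ∑ v ∈ T, pnrm F s v ≤ psum F S s := by
  have h1 : ∑ v ∈ T, pnrm F s v = ∑ v ∈ T, S.indicator (pnrm F s) v :=
    Finset.sum_congr rfl fun v hv => (Set.indicator_of_mem (hT v hv) _).symm
  rw [h1]
  exact (summable_indicator F S hs).sum_le_tsum T (fun v _ => indicator_pnrm_nonneg F S s v)

theorem psum_union {S S' : Set (HeightOneSpectrum (𝓞 F))} (h : Disjoint S S') {s : ℝ}
    (hs : 1 < s) : psum F (S ∪ S') s = psum F S s + psum F S' s := by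
  unfold psum
  rw [Set.indicator_union_of_disjoint h]
  exact (summable_indicator F S hs).tsum_add (summable_indicator F S' hs)

/-- the primes dividing a fixed nonzero element contribute a bounded amount. -/
theorem psum_dvd_le (x : 𝓞 F) (hx : x ≠ 0) :
    ∃ C : ℝ, ∀ s : ℝ, 1 < s → psum F {v | x ∈ v.asIdeal} s ≤ C := by
  obtain ⟨C, hC⟩ := S14.AN.sum_pnrm_dvd_le F x hx
  exact ⟨C, fun s hs => psum_le_of_finset F _ s C fun T hT => hC s hs.le T hT⟩

/-- the primes dividing a fixed nonzero ideal contribute a bounded amount. -/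
theorem psum_dvd_ideal_le (I : Ideal (𝓞 F)) (hI : I ≠ ⊥) :
    ∃ C : ℝ, ∀ s : ℝ, 1 < s → psum F {v | v.asIdeal ∣ I} s ≤ C := by
  obtain ⟨x, hxI, hx⟩ := Submodule.exists_mem_ne_zero_of_ne_bot hI
  obtain ⟨C, hC⟩ := psum_dvd_le F x hx
  refine ⟨C, fun s hs => (psum_mono F (fun v hv => ?_) hs).trans (hC s hs)⟩
  exact Ideal.le_of_dvd hv hxI

/-- **Main estimate**: `∑_{v of degree one} N(v)^(-s) = log (1/(s-1)) + O(1)` on `(1,2]`. -/
theorem psum_P1 : BddDiff (psum F (P1 F)) lg := by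
  classical
  obtain ⟨c, c', hc, hc', hz⟩ := S14.zetaR_bounds F
  obtain ⟨C₁, hC₁⟩ := S14.AN.sum_pnrm_sq_le F
  obtain ⟨C₂, hC₂⟩ := S14.AN.sum_pnrm_not_prime_le F
  refine ⟨|Real.log c'| + |Real.log 2 + C₁ + C₂ - Real.log c|, fun s hs1 hs2 => ?_⟩
  have hs0 : 0 < s - 1 := by linarith
  obtain ⟨hz1, hz2⟩ := hz s hs1 hs2
  -- upper bound
  have hup : psum F (P1 F) s ≤ Real.log c' + lg s := by
    refine psum_le_of_finset F _ s _ fun T _ => ?_
    have h1 : Real.exp (∑ v ∈ T, pnrm F s v) ≤ c' / (s - 1) :=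
      (S14.AN.exp_sum_le_zetaR F hs1 T).trans hz2
    have h2 := (Real.le_log_iff_exp_le (div_pos hc' hs0)).mpr h1
    rw [Real.log_div hc'.ne' hs0.ne'] at h2
    unfold lg
    linarith
  -- lower bound
  have hlow : lg s ≤ psum F (P1 F) s + (Real.log 2 + C₁ + C₂ - Real.log c) := by
    obtain ⟨T, hT⟩ := (S14.AN.zetaR_le_exp F hs1).exists
    have h1 : c / (s - 1) ≤ 2 * Real.exp (∑ v ∈ T, (pnrm F s v + pnrm F s v ^ 2)) :=
      hz1.trans hT
    have h2 := Real.log_le_log (div_pos hc hs0) h1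
    rw [Real.log_div hc.ne' hs0.ne', Real.log_mul two_ne_zero (Real.exp_pos _).ne',
      Real.log_exp, Finset.sum_add_distrib] at h2
    have h3 : ∑ v ∈ T, pnrm F s v =
        ∑ v ∈ T.filter (· ∈ P1 F), pnrm F s v + ∑ v ∈ T.filter (· ∉ P1 F), pnrm F s v :=
      (Finset.sum_filter_add_sum_filter_not T _ _).symm
    have h4 : ∑ v ∈ T.filter (· ∈ P1 F), pnrm F s v ≤ psum F (P1 F) s :=
      sum_le_psum F _ hs1 _ fun v hv => (Finset.mem_filter.mp hv).2
    have h5 : ∑ v ∈ T.filter (· ∉ P1 F), pnrm F s v ≤ C₂ :=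
      hC₂ s hs1.le _ fun v hv => (Finset.mem_filter.mp hv).2
    have h6 := hC₁ s hs1.le T
    unfold lg
    linarith
  rw [abs_le]
  constructor
  · have := le_abs_self (Real.log 2 + C₁ + C₂ - Real.log c)
    have := abs_nonneg (Real.log c')
    linarith
  · have := le_abs_self (Real.log c')
    have := abs_nonneg (Real.log 2 + C₁ + C₂ - Real.log c)
    linarith

end Fermat.Agent.FD
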