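/-
FD / M2b : `[M:F] * ∑_{v ∈ Spl F M} N(v)^(-s) = log (1/(s-1)) + O(1)`.
-/
import Fermat.Agent.Lib.FrobDensity.PrimeSum
import Fermat.Agent.Lib.FrobDensity.FiberAlg

set_option autoImplicit false

namespace Fermat.Agent.FD

open NumberField IsDedekindDomain
open scoped NumberField
open Fermat.Agent.S14.AN (pnrm)

variable (F M : Type) [Field F] [NumberField F] [Field M] [NumberField M] [Algebra F M]
  [IsGalois F M]

/-- the contribution of one fibre -/
theorem tsum_fiber_Spl (s : ℝ) (v : HeightOneSpectrum (𝓞 F)) :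
    ∑' w : {w : HeightOneSpectrum (𝓞 M) // w.under (𝓞 F) = v},
      ({w | w.under (𝓞 F) ∈ Spl F M} : Set (HeightOneSpectrum (𝓞 M))).indicator (pnrm M s) w.1 =
    Module.finrank F M * (Spl F M).indicator (pnrm F s) v := by
  classical
  haveI : Finite {w : HeightOneSpectrum (𝓞 M) // w.under (𝓞 F) = v} := finite_fiber F M v
  haveI : Fintype {w : HeightOneSpectrum (𝓞 M) // w.under (𝓞 F) = v} := Fintype.ofFinite _
  rw [tsum_fintype]
  by_cases hv : v ∈ Spl F M
  · have h1 : ∀ w : {w : HeightOneSpectrum (𝓞 M) // w.under (𝓞 F) = v},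
        ({w | w.under (𝓞 F) ∈ Spl F M} : Set (HeightOneSpectrum (𝓞 M))).indicator (pnrm M s) w.1
          = pnrm F s v := by
      rintro ⟨w, hw⟩
      have hw' : w.under (𝓞 F) ∈ Spl F M := by rw [hw]; exact hv
      rw [Set.indicator_of_mem (show w ∈ {w | w.under (𝓞 F) ∈ Spl F M} from hw')]
      have := absNorm_eq_of_under_mem_Spl F M w hw'
      simp only [pnrm, Fermat.Agent.S14.AN.nrm, Fermat.Agent.S14.AN.toIdl]
      rw [this, hw]
    rw [Finset.sum_congr rfl (fun w _ => h1 w), Finset.sum_const, Set.indicator_of_mem hv,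
      nsmul_eq_mul]
    congr 2
    have h2 := ncard_fiber F M v
    rw [hv.2] at h2
    rw [← h2, Finset.card_univ, ← Nat.card_eq_fintype_card]
    rfl
  · have h1 : ∀ w : {w : HeightOneSpectrum (𝓞 M) // w.under (𝓞 F) = v},
        ({w | w.under (𝓞 F) ∈ Spl F M} : Set (HeightOneSpectrum (𝓞 M))).indicator (pnrm M s) w.1
          = 0 := by
      rintro ⟨w, hw⟩
      apply Set.indicator_of_notMem
      intro hw'
      apply hv
      rw [← hw]
      exact hw'
    rw [Finset.sum_congr rfl (fun w _ => h1 w), Finset.sum_const_zero,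
      Set.indicator_of_notMem hv, mul_zero]

/-- the sum over the primes of `M` above completely split primes of `F` -/
theorem psum_preimage_Spl {s : ℝ} (hs : 1 < s) :
    psum M {w | w.under (𝓞 F) ∈ Spl F M} s = Module.finrank F M * psum F (Spl F M) s := by
  classical
  have hsum : Summable (({w | w.under (𝓞 F) ∈ Spl F M} :
      Set (HeightOneSpectrum (𝓞 M))).indicator (pnrm M s)) := summable_indicator M _ hs
  unfold psum
  rw [← (Equiv.sigmaFiberEquiv (fun w : HeightOneSpectrum (𝓞 M) => w.under (𝓞 F))).tsum_eq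
    (({w | w.under (𝓞 F) ∈ Spl F M} : Set (HeightOneSpectrum (𝓞 M))).indicator (pnrm M s))]
  have hsum' := ((Equiv.sigmaFiberEquiv
    (fun w : HeightOneSpectrum (𝓞 M) => w.under (𝓞 F))).summable_iff).mpr hsum
  refine (Summable.tsum_sigma hsum').trans ?_
  rw [← tsum_mul_left]
  refine tsum_congr (fun v => ?_)
  exact tsum_fiber_Spl F M s v

theorem psum_Spl : BddDiff (fun s => (Module.finrank F M : ℝ) * psum F (Spl F M) s) lg := by
  classical
  obtain ⟨C, hC⟩ := psum_dvd_ideal_le M (differentIdeal (𝓞 F) (𝓞 M)) differentIdeal_ne_bot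
  refine BddDiff.trans ?_ (psum_P1 M)
  refine ⟨C, fun s hs1 _ => ?_⟩
  show |(Module.finrank F M : ℝ) * psum F (Spl F M) s - psum M (P1 M) s| ≤ C
  rw [← psum_preimage_Spl F M hs1]
  have hsub : ({w | w.under (𝓞 F) ∈ Spl F M} : Set (HeightOneSpectrum (𝓞 M))) ⊆ P1 M := by
    intro w hw
    have h1 := absNorm_eq_of_under_mem_Spl F M w hw
    show (Ideal.absNorm w.asIdeal).Prime
    rw [h1]
    exact hw.1
  have hunion : P1 M = {w | w.under (𝓞 F) ∈ Spl F M} ∪ (P1 M \ {w | w.under (𝓞 F) ∈ Spl F M}) :=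
    (Set.union_sdiff_cancel hsub).symm
  have hsplit : psum M (P1 M) s = psum M {w | w.under (𝓞 F) ∈ Spl F M} s +
      psum M (P1 M \ {w | w.under (𝓞 F) ∈ Spl F M}) s := by
    conv_lhs => rw [hunion]
    exact psum_union M Set.disjoint_sdiff_right hs1
  have hle : psum M (P1 M \ {w | w.under (𝓞 F) ∈ Spl F M}) s ≤ C := by
    refine le_trans (psum_mono M ?_ hs1) (hC s hs1)
    rintro w ⟨hw1, hw2⟩
    by_contra hd
    exact hw2 (under_mem_Spl F M w hw1 hd)
  have h0 := psum_nonneg M (P1 M \ {w | w.under (𝓞 F) ∈ Spl F M}) s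
  rw [hsplit, abs_le]
  constructor <;> linarith

end Fermat.Agent.FD
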