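/-
FD / M3 : cyclic towers.  For `L/E` cyclic and `d ∣ [L:E]`, the primes `v` of `E` with
`d ∣ gNum E L v` are exactly those which split completely in the subextension of degree `d`.
-/
import Fermat.Agent.Lib.FrobDensity.Fiber

set_option autoImplicit false

namespace Fermat.Agent.FD

open NumberField IsDedekindDomain
open scoped NumberField

variable (E L : Type) [Field E] [NumberField E] [Field L] [NumberField L] [Algebra E L]
  [IsGalois E L]

/-- group theory: in a finite cyclic group, `D ≤ H` as soon as `[G:H] ∣ [G:D]`. -/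
theorem le_of_index_dvd_index {G : Type*} [Group G] [Finite G] [IsCyclic G] (D H : Subgroup G)
    (h : H.index ∣ D.index) : D ≤ H := by
  classical
  have hcard : Nat.card D ∣ Nat.card H := by
    have h1 := D.card_mul_index
    have h2 := H.card_mul_index
    obtain ⟨c, hc⟩ := h
    have hpos : 0 < H.index := Nat.pos_of_ne_zero H.index_ne_zero_of_finite
    refine ⟨c, ?_⟩
    rw [hc] at h1
    have : H.index * (Nat.card D * c) = H.index * Nat.card H := by
      rw [mul_comm H.index (Nat.card H), h2, ← h1]; ring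
    exact (Nat.eq_of_mul_eq_mul_left hpos this).symm
  have key : ∀ (K : Subgroup G) (x : G), x ∈ K → x ^ Nat.card K = 1 := fun K x hx => by
    have h1 := pow_card_eq_one' (G := K) (x := ⟨x, hx⟩)
    have h2 := congrArg Subtype.val h1
    rwa [Subgroup.coe_pow] at h2
  have : Fintype G := Fintype.ofFinite G
  have hHpos : 0 < Nat.card H := Nat.card_pos
  have hle := IsCyclic.card_pow_eq_one_le (α := G) hHpos
  have hsub : (H : Set G).toFinset ⊆ Finset.univ.filter (fun a : G => a ^ Nat.card H = 1) := by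
    intro x hx
    simp only [Set.mem_toFinset, SetLike.mem_coe] at hx
    simp only [Finset.mem_filter, Finset.mem_univ, true_and]
    exact key H x hx
  have hc : ((H : Set G).toFinset).card = Nat.card H := by
    rw [Set.toFinset_card, Nat.card_eq_fintype_card]; rfl
  have heq := Finset.eq_of_subset_of_card_le hsub (by rw [hc]; exact hle)
  intro x hx
  have hx1 : x ^ Nat.card D = 1 := key D x hx
  have hx2 : x ^ Nat.card H = 1 := by
    obtain ⟨c, hc⟩ := hcard
    rw [hc, pow_mul, hx1, one_pow]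
  have : x ∈ (H : Set G).toFinset := by
    rw [heq, Finset.mem_filter]; exact ⟨Finset.mem_univ _, hx2⟩
  simpa using this

theorem exists_intermediateField [IsCyclic (L ≃ₐ[E] L)] (d : ℕ) (hd : d ∣ Module.finrank E L) :
    ∃ K : IntermediateField E L, IsGalois E K ∧ Module.finrank E K = d := by
  obtain ⟨g, hg⟩ := IsCyclic.exists_ofOrder_eq_natCard (α := (L ≃ₐ[E] L))
  have hn : Nat.card (L ≃ₐ[E] L) = Module.finrank E L := IsGalois.card_aut_eq_finrank E L
  have hnpos : 0 < Module.finrank E L := Module.finrank_pos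
  have hdpos : 0 < d := Nat.pos_of_dvd_of_pos hd hnpos
  let H : Subgroup (L ≃ₐ[E] L) := Subgroup.zpowers (g ^ d)
  have hHcard : Nat.card H = Module.finrank E L / d := by
    rw [Nat.card_zpowers, orderOf_pow, hg, hn, Nat.gcd_eq_right hd]
  have hHidx : H.index = d := by
    have h1 := H.card_mul_index
    rw [hHcard, hn] at h1
    obtain ⟨c, hc⟩ := hd
    rw [hc, Nat.mul_div_cancel_left _ hdpos] at h1
    have hcpos : 0 < c := by
      rcases Nat.eq_zero_or_pos c with h0 | h0
      · rw [h0, mul_zero] at hc; omega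
      · exact h0
    have : c * H.index = c * d := by rw [h1]; ring
    exact Nat.eq_of_mul_eq_mul_left hcpos this
  refine ⟨IntermediateField.fixedField H, inferInstance, ?_⟩
  rw [IntermediateField.finrank_eq_fixingSubgroup_index, IntermediateField.fixingSubgroup_fixedField, hHidx]

/-- multiplicativity of the number of primes in a tower `E ⊆ K ⊆ L` (`w` a prime of `K`). -/
theorem gNum_tower (K : IntermediateField E L) [IsGalois E K] (w : HeightOneSpectrum (𝓞 K)) :
    gNum E K (w.under (𝓞 E)) * gNum K L w = gNum E L (w.under (𝓞 E)) := by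
  unfold gNum
  have : w.asIdeal.LiesOver (w.under (𝓞 E)).asIdeal := ⟨rfl⟩
  exact Ideal.ncard_primesOver_mul_ncard_primesOver (p := (w.under (𝓞 E)).asIdeal) w.asIdeal
    Gal(K/E) (𝓞 L) Gal(L/E)

section aux

open scoped Pointwise

omit [NumberField E] [NumberField L] [IsGalois E L] in
theorem restrictScalars_smul_ideal (K : IntermediateField E L) (σ : Gal(L/K)) (I : Ideal (𝓞 L)) :
    (σ.restrictScalars E : Gal(L/E)) • I = σ • I := by
  ext x
  rw [Ideal.mem_pointwise_smul_iff_inv_smul_mem, Ideal.mem_pointwise_smul_iff_inv_smul_mem]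
  rfl

theorem gNum_eq_finrank_of_dvd [IsCyclic (L ≃ₐ[E] L)] (K : IntermediateField E L) [IsGalois E K]
    (v : HeightOneSpectrum (𝓞 E)) (h : Module.finrank E K ∣ gNum E L v) :
    gNum E K v = Module.finrank E K := by
  obtain ⟨Q, hQ1, hQ2⟩ := (inferInstance : Nonempty (v.asIdeal.primesOver (𝓞 L)))
  let w : Ideal (𝓞 K) := Q.under (𝓞 K)
  have hw1 : w.IsPrime := inferInstance
  have hQw : Q.LiesOver w := ⟨rfl⟩
  have hw2 : w.LiesOver v.asIdeal := Ideal.LiesOver.tower_bot Q w v.asIdeal
  let f := IsGaloisGroup.restrictHom Gal(L/E) Gal(K/E) (𝓞 E) (𝓞 K) (𝓞 L)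
  have hL : gNum E L v = (MulAction.stabilizer Gal(L/E) Q).index := by
    unfold gNum
    rw [← Algebra.IsInvariant.orbit_eq_primesOver (𝓞 E) (𝓞 L) Gal(L/E) v.asIdeal Q,
      ← MulAction.index_stabilizer]
  have hK : gNum E K v = (MulAction.stabilizer Gal(K/E) w).index := by
    unfold gNum
    rw [← Algebra.IsInvariant.orbit_eq_primesOver (𝓞 E) (𝓞 K) Gal(K/E) v.asIdeal w,
      ← MulAction.index_stabilizer]
  have hDH : MulAction.stabilizer Gal(L/E) Q ≤ K.fixingSubgroup := by
    apply le_of_index_dvd_index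
    rw [← IntermediateField.finrank_eq_fixingSubgroup_index, ← hL]
    exact h
  have hker : ∀ g : Gal(L/E), g ∈ K.fixingSubgroup → f g = 1 := by
    intro g hg
    apply (IsGaloisGroup.faithful (G := Gal(K/E)) (A := 𝓞 E) (B := 𝓞 K)).eq_of_smul_eq_smul
    intro x
    apply FaithfulSMul.algebraMap_injective (𝓞 K) (𝓞 L)
    rw [IsGaloisGroup.algebraMap_restrictHom_smul, one_smul]
    apply RingOfIntegers.ext
    have := (IntermediateField.mem_fixingSubgroup_iff K g).1 hg (x : K) (x : K).2
    exact this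
  have hbot : MulAction.stabilizer Gal(K/E) w = ⊥ := by
    rw [eq_bot_iff]
    intro gb hgb
    obtain ⟨g, rfl⟩ := IsGaloisGroup.restrictHom_surjective Gal(L/E) Gal(K/E) (𝓞 E) (𝓞 K) (𝓞 L) gb
    rw [MulAction.mem_stabilizer_iff] at hgb
    have h1 : (g • Q).under (𝓞 K) = w := by
      rw [← IsGaloisGroup.restrictHom_smul_under Gal(L/E) Gal(K/E) (𝓞 E) (𝓞 K) (𝓞 L)]
      exact hgb
    have h2 : (g • Q).LiesOver w := ⟨h1.symm⟩
    obtain ⟨σ, hσ⟩ := Ideal.exists_smul_eq_of_isGaloisGroup w (g • Q) Q Gal(L/K)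
    rw [← restrictScalars_smul_ideal, ← mul_smul] at hσ
    have h3 : (σ.restrictScalars E : Gal(L/E)) * g ∈ K.fixingSubgroup := hDH hσ
    have h4 : (σ.restrictScalars E : Gal(L/E)) ∈ K.fixingSubgroup := by
      rw [IntermediateField.mem_fixingSubgroup_iff]
      intro x hx
      exact σ.commutes ⟨x, hx⟩
    have h5 : g ∈ K.fixingSubgroup := (Subgroup.mul_mem_cancel_left _ h4).1 h3
    rw [Subgroup.mem_bot]
    exact hker g h5
  rw [hK, hbot, Subgroup.index_bot, IsGalois.card_aut_eq_finrank]

end aux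

theorem gNum_eq_finrank_iff [IsCyclic (L ≃ₐ[E] L)] (K : IntermediateField E L) [IsGalois E K]
    (v : HeightOneSpectrum (𝓞 E)) :
    gNum E K v = Module.finrank E K ↔ Module.finrank E K ∣ gNum E L v := by
  constructor
  · intro h
    obtain ⟨P, hP1, hP2⟩ := (inferInstance : Nonempty (v.asIdeal.primesOver (𝓞 K)))
    have hPne : P ≠ ⊥ := Ideal.ne_bot_of_liesOver_of_ne_bot v.ne_bot P
    let w : HeightOneSpectrum (𝓞 K) := ⟨P, hP1, hPne⟩
    have hwv : w.under (𝓞 E) = v := by
      ext1
      exact (hP2.over).symm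
    have := gNum_tower E L K w
    rw [hwv, h] at this
    exact ⟨_, this.symm⟩
  · exact gNum_eq_finrank_of_dvd E L K v

theorem psum_Dv [IsCyclic (L ≃ₐ[E] L)] (d : ℕ) (hd : d ∣ Module.finrank E L) :
    BddDiff (fun s => (d : ℝ) * psum E (Dv E L d) s) lg := by
  obtain ⟨K, hK, rfl⟩ := exists_intermediateField E L d hd
  have h := psum_Spl E K
  have e : Spl E K = Dv E L (Module.finrank E K) := by
    ext v
    simp only [Spl, Dv, Set.mem_ofPred_eq, gNum_eq_finrank_iff E L K v]
  rwa [e] at h

end Fermat.Agent.FD
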