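/-
FD / M4 : inclusion-exclusion.  In a cyclic extension `L/E` there are (infinitely many) primes of
`E` of absolute degree one with only one prime above them.
-/
import Fermat.Agent.Lib.FrobDensity.Tower

set_option autoImplicit false

namespace Fermat.Agent.FD

open NumberField IsDedekindDomain
open scoped NumberField
open Fermat.Agent.S14.AN (pnrm)

/-- abstract inclusion-exclusion -/
theorem prod_one_sub_eq_sum_powerset (R : Finset ℕ) (x : ℕ → ℝ) :
    ∏ r ∈ R, (1 - x r) = ∑ A ∈ R.powerset, (-1 : ℝ) ^ A.card * ∏ r ∈ A, x r := by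
  have h := Finset.prod_add_one (s := R) (f := fun r => - x r)
  have e : ∏ r ∈ R, (1 - x r) = ∏ r ∈ R, (- x r + 1) :=
    Finset.prod_congr rfl (fun r _ => by ring)
  rw [e, h]
  refine Finset.sum_congr rfl (fun A _ => ?_)
  rw [Finset.prod_neg]

theorem prod_dvd_iff_of_primes (A : Finset ℕ) (hA : ∀ r ∈ A, r.Prime) (g : ℕ) :
    (∏ r ∈ A, r) ∣ g ↔ ∀ r ∈ A, r ∣ g := by
  constructor
  · intro h r hr
    exact (Finset.dvd_prod_of_mem (fun r => r) hr).trans h
  · intro h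
    exact Finset.prod_primes_dvd g (fun r hr => (hA r hr).prime) h

/-- pointwise inclusion-exclusion -/
theorem indicator_sieve (R : Finset ℕ) (hR : ∀ r ∈ R, r.Prime) (g : ℕ) :
    (if ∀ r ∈ R, ¬ r ∣ g then (1 : ℝ) else 0) =
      ∑ A ∈ R.powerset, (-1 : ℝ) ^ A.card * (if (∏ r ∈ A, r) ∣ g then 1 else 0) := by
  have h := prod_one_sub_eq_sum_powerset R (fun r => if r ∣ g then (1 : ℝ) else 0)
  have e1 : ∏ r ∈ R, (1 - (if r ∣ g then (1 : ℝ) else 0)) =
      if ∀ r ∈ R, ¬ r ∣ g then (1 : ℝ) else 0 := by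
    have : ∀ r ∈ R, (1 - (if r ∣ g then (1 : ℝ) else 0)) = if ¬ r ∣ g then (1 : ℝ) else 0 := by
      intro r _
      by_cases hr : r ∣ g <;> simp [hr]
    rw [Finset.prod_congr rfl this, Finset.prod_ite_zero]
    simp
  rw [← e1, h]
  refine Finset.sum_congr rfl (fun A hA => ?_)
  congr 1
  have hA' : ∀ r ∈ A, r.Prime := fun r hr => hR r (Finset.mem_powerset.mp hA hr)
  rw [Finset.prod_ite_zero]
  simp only [Finset.prod_const_one, prod_dvd_iff_of_primes A hA' g]

theorem prod_sieve (R : Finset ℕ) :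
    ∏ r ∈ R, (1 - (r : ℝ)⁻¹) = ∑ A ∈ R.powerset, (-1 : ℝ) ^ A.card * ((∏ r ∈ A, r : ℕ) : ℝ)⁻¹ := by
  rw [prod_one_sub_eq_sum_powerset R (fun r => (r : ℝ)⁻¹)]
  refine Finset.sum_congr rfl (fun A _ => ?_)
  congr 1
  rw [Finset.prod_inv_distrib]
  push_cast
  rfl

theorem prod_sieve_pos (R : Finset ℕ) (hR : ∀ r ∈ R, r.Prime) :
    0 < ∏ r ∈ R, (1 - (r : ℝ)⁻¹) := by
  refine Finset.prod_pos (fun r hr => ?_)
  have h2 : (2 : ℝ) ≤ r := by exact_mod_cast (hR r hr).two_le
  have : (r : ℝ)⁻¹ ≤ 2⁻¹ := inv_anti₀ (by norm_num) h2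
  linarith [show (2 : ℝ)⁻¹ < 1 by norm_num]

variable (E L : Type) [Field E] [NumberField E] [Field L] [NumberField L] [Algebra E L]
  [IsGalois E L]

theorem gNum_eq_one_iff (v : HeightOneSpectrum (𝓞 E)) :
    gNum E L v = 1 ↔ ∀ r ∈ (Module.finrank E L).primeFactors, ¬ r ∣ gNum E L v := by
  constructor
  · intro h r hr
    rw [h]
    exact (Nat.prime_of_mem_primeFactors hr).one_lt.ne' ∘ Nat.dvd_one.mp
  · intro h
    by_contra hne
    obtain ⟨r, hr, hrd⟩ := Nat.exists_prime_and_dvd hne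
    have hn : Module.finrank E L ≠ 0 := Module.finrank_pos.ne'
    exact h r (Nat.mem_primeFactors.mpr ⟨hr, hrd.trans (gNum_dvd E L v), hn⟩) hrd

theorem indicator_inert (s : ℝ) (v : HeightOneSpectrum (𝓞 E)) :
    ({v | v ∈ P1 E ∧ gNum E L v = 1} : Set (HeightOneSpectrum (𝓞 E))).indicator (pnrm E s) v =
      ∑ A ∈ (Module.finrank E L).primeFactors.powerset,
        (-1 : ℝ) ^ A.card * (Dv E L (∏ r ∈ A, r)).indicator (pnrm E s) v := by
  classical
  by_cases hv : v ∈ P1 E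
  · have h := indicator_sieve (Module.finrank E L).primeFactors
      (fun r hr => Nat.prime_of_mem_primeFactors hr) (gNum E L v)
    have e1 : ({v | v ∈ P1 E ∧ gNum E L v = 1} : Set (HeightOneSpectrum (𝓞 E))).indicator
        (pnrm E s) v =
        (if ∀ r ∈ (Module.finrank E L).primeFactors, ¬ r ∣ gNum E L v then (1 : ℝ) else 0) *
          pnrm E s v := by
      rw [Set.indicator_apply]
      by_cases h1 : gNum E L v = 1
      · have h2 := (gNum_eq_one_iff E L v).mp h1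
        rw [if_pos (show v ∈ {v | v ∈ P1 E ∧ gNum E L v = 1} from ⟨hv, h1⟩), if_pos h2, one_mul]
      · have h2 : ¬ ∀ r ∈ (Module.finrank E L).primeFactors, ¬ r ∣ gNum E L v :=
          fun h => h1 ((gNum_eq_one_iff E L v).mpr h)
        rw [if_neg (show v ∉ {v | v ∈ P1 E ∧ gNum E L v = 1} from fun h => h1 h.2), if_neg h2,
          zero_mul]
    rw [e1, h, Finset.sum_mul]
    refine Finset.sum_congr rfl (fun A _ => ?_)
    rw [mul_assoc]
    congr 1
    rw [Set.indicator_apply]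
    by_cases h1 : (∏ r ∈ A, r) ∣ gNum E L v
    · rw [if_pos h1, if_pos (show v ∈ Dv E L (∏ r ∈ A, r) from ⟨hv, h1⟩), one_mul]
    · rw [if_neg h1, if_neg (show v ∉ Dv E L (∏ r ∈ A, r) from fun h => h1 h.2), zero_mul]
  · rw [Set.indicator_of_notMem (fun h => hv h.1)]
    symm
    refine Finset.sum_eq_zero (fun A _ => ?_)
    rw [Set.indicator_of_notMem (fun h => hv h.1), mul_zero]

theorem psum_sieve {s : ℝ} (hs : 1 < s) :
    psum E {v | v ∈ P1 E ∧ gNum E L v = 1} s =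
      ∑ A ∈ (Module.finrank E L).primeFactors.powerset,
        (-1 : ℝ) ^ A.card * psum E (Dv E L (∏ r ∈ A, r)) s := by
  unfold psum
  rw [tsum_congr (indicator_inert E L s), Summable.tsum_finsetSum]
  · refine Finset.sum_congr rfl (fun A _ => ?_)
    rw [tsum_mul_left]
  · intro A _
    exact (summable_indicator E _ hs).mul_left _

omit [NumberField E] [NumberField L] [IsGalois E L] in
theorem prod_dvd_finrank (A : Finset ℕ) (hA : A ∈ (Module.finrank E L).primeFactors.powerset) :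
    (∏ r ∈ A, r) ∣ Module.finrank E L := by
  have hA' := Finset.mem_powerset.mp hA
  exact Finset.prod_primes_dvd _ (fun r hr => (Nat.prime_of_mem_primeFactors (hA' hr)).prime)
    (fun r hr => Nat.dvd_of_mem_primeFactors (hA' hr))

theorem psum_inert [IsCyclic (L ≃ₐ[E] L)] :
    BddDiff (psum E {v | v ∈ P1 E ∧ gNum E L v = 1})
      (fun s => (∏ r ∈ (Module.finrank E L).primeFactors, (1 - (r : ℝ)⁻¹)) * lg s) := by
  have h : ∀ A ∈ (Module.finrank E L).primeFactors.powerset,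
      BddDiff (fun s => (-1 : ℝ) ^ A.card * psum E (Dv E L (∏ r ∈ A, r)) s)
        (fun s => (-1 : ℝ) ^ A.card * (((∏ r ∈ A, r : ℕ) : ℝ)⁻¹ * lg s)) := by
    intro A hA
    have hd := prod_dvd_finrank E L A hA
    have h0 : ((∏ r ∈ A, r : ℕ) : ℝ) ≠ 0 := by
      have hn : Module.finrank E L ≠ 0 := Module.finrank_pos.ne'
      have : (∏ r ∈ A, r) ≠ 0 := fun h => hn (by simpa [h] using hd)
      exact_mod_cast this
    have h1 := (psum_Dv E L _ hd).const_mul (((∏ r ∈ A, r : ℕ) : ℝ)⁻¹)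
    have h2 : BddDiff (fun s => psum E (Dv E L (∏ r ∈ A, r)) s)
        (fun s => ((∏ r ∈ A, r : ℕ) : ℝ)⁻¹ * lg s) :=
      h1.congr (fun s _ _ => by rw [← mul_assoc, inv_mul_cancel₀ h0, one_mul]) (fun s _ _ => rfl)
    exact h2.const_mul _
  have h3 := BddDiff.sum _ h
  refine h3.congr (fun s hs _ => (psum_sieve E L hs).symm) (fun s _ _ => ?_)
  rw [prod_sieve, Finset.sum_mul]
  refine Finset.sum_congr rfl (fun A _ => ?_)
  ring

theorem exists_inert [IsCyclic (L ≃ₐ[E] L)] (x : 𝓞 E) (hx : x ≠ 0) :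
    ∃ v : HeightOneSpectrum (𝓞 E), v ∈ P1 E ∧ x ∉ v.asIdeal ∧ gNum E L v = 1 := by
  by_contra hcon
  push Not at hcon
  obtain ⟨C, hC⟩ := psum_dvd_le E x hx
  obtain ⟨B, hB⟩ := psum_inert E L
  have hpos := prod_sieve_pos (Module.finrank E L).primeFactors
    (fun r hr => Nat.prime_of_mem_primeFactors hr)
  obtain ⟨s, hs1, hs2, hs⟩ := not_bddDiff_lg hpos (C + B)
  have hsub : ({v | v ∈ P1 E ∧ gNum E L v = 1} : Set (HeightOneSpectrum (𝓞 E))) ⊆
      {v | x ∈ v.asIdeal} := by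
    intro v hv
    by_contra hxv
    exact hcon v hv.1 hxv hv.2
  have h1 := psum_mono E hsub hs1
  have h2 := hC s hs1
  have h3 := hB s hs1 hs2
  have h4 := abs_le.mp h3
  linarith [h4.1, h4.2]

end Fermat.Agent.FD
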