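/-
FD / M5 : an inert prime of degree one has a Frobenius element generating the Galois group.
-/
import Fermat.Agent.Lib.FrobDensity.Sieve

set_option autoImplicit false

namespace Fermat.Agent.FD

open NumberField IsDedekindDomain
open scoped NumberField

theorem card_le_of_forall_pow_eq {k : Type*} [CommRing k] [IsDomain k] [Finite k] (q : ℕ)
    (hq : 1 < q) (h : ∀ y : k, y ^ q = y) : Nat.card k ≤ q := by
  classical
  have : Fintype k := Fintype.ofFinite k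
  let p : Polynomial k := Polynomial.X ^ q - Polynomial.X
  have hdeg : p.natDegree = q := by
    have h1 : (Polynomial.X : Polynomial k).natDegree <
        (Polynomial.X ^ q : Polynomial k).natDegree := by
      rw [Polynomial.natDegree_X_pow, Polynomial.natDegree_X]
      exact hq
    rw [Polynomial.natDegree_sub_eq_left_of_natDegree_lt h1, Polynomial.natDegree_X_pow]
  have hp : p ≠ 0 := by
    intro h0
    rw [h0, Polynomial.natDegree_zero] at hdeg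
    omega
  have hall : (Finset.univ : Finset k) ⊆ p.roots.toFinset := by
    intro y _
    rw [Multiset.mem_toFinset, Polynomial.mem_roots hp]
    simp [p, Polynomial.IsRoot, h y]
  calc Nat.card k = (Finset.univ : Finset k).card := by
        rw [Finset.card_univ, Nat.card_eq_fintype_card]
    _ ≤ p.roots.toFinset.card := Finset.card_le_card hall
    _ ≤ Multiset.card p.roots := Multiset.toFinset_card_le _
    _ ≤ p.natDegree := Polynomial.card_roots' p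
    _ = q := hdeg

variable (E L : Type) [Field E] [NumberField E] [Field L] [NumberField L] [Algebra E L]
  [IsGalois E L]

omit [NumberField E] [NumberField L] [IsGalois E L] in
theorem frob_iterate (w : Ideal (𝓞 L)) (ℓ : ℕ) (ψ : L ≃ₐ[E] L)
    (hψ : ∀ x : 𝓞 L, ψ • x - x ^ ℓ ∈ w) (k : ℕ) (x : 𝓞 L) : (ψ ^ k) • x - x ^ (ℓ ^ k) ∈ w := by
  induction k generalizing x with
  | zero => simp
  | succ k ih =>
    have h1 := ih (ψ • x)
    have h2 : (ψ • x) ^ (ℓ ^ k) - (x ^ ℓ) ^ (ℓ ^ k) ∈ w :=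
      Ideal.mem_of_dvd _ (sub_dvd_pow_sub_pow _ _ _) (hψ x)
    have h3 := w.add_mem h1 h2
    have e : (ψ ^ (k + 1)) • x - x ^ (ℓ ^ (k + 1)) =
        (ψ ^ k) • (ψ • x) - (ψ • x) ^ (ℓ ^ k) + ((ψ • x) ^ (ℓ ^ k) - (x ^ ℓ) ^ (ℓ ^ k)) := by
      rw [pow_succ ψ, mul_smul, ← pow_mul, pow_succ' ℓ]
      ring
    rw [e]
    exact h3

/-- if `ψ x ≡ x ^ ℓ mod w` for all `x` and `N(w) = ℓ ^ n` then the order of `ψ` is at least `n` -/
theorem le_orderOf_of_frob (w : Ideal (𝓞 L)) [w.IsPrime] (ℓ n : ℕ) (hℓ : ℓ.Prime)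
    (hN : Ideal.absNorm w = ℓ ^ n) (ψ : L ≃ₐ[E] L) (hψ : ∀ x : 𝓞 L, ψ • x - x ^ ℓ ∈ w) :
    n ≤ orderOf ψ := by
  classical
  set k := orderOf ψ with hk
  have hk0 : 0 < k := orderOf_pos ψ
  have hw0 : w ≠ ⊥ := by
    rintro rfl
    rw [Ideal.absNorm_bot] at hN
    exact (pow_ne_zero n hℓ.ne_zero) hN.symm
  have hfin : Finite (𝓞 L ⧸ w) := Ideal.finiteQuotientOfFreeOfNeBot w hw0
  have hcard : Nat.card (𝓞 L ⧸ w) = ℓ ^ n := by
    rw [← hN, Ideal.absNorm_apply, Submodule.cardQuot_apply]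
  have hroot : ∀ y : 𝓞 L ⧸ w, y ^ (ℓ ^ k) = y := by
    intro y
    obtain ⟨x, rfl⟩ := Ideal.Quotient.mk_surjective y
    have h := frob_iterate E L w ℓ ψ hψ k x
    rw [hk, pow_orderOf_eq_one, one_smul] at h
    rw [← map_pow]
    exact (Ideal.Quotient.eq.mpr h).symm
  have h1 : 1 < ℓ ^ k := Nat.one_lt_pow hk0.ne' hℓ.one_lt
  have h2 := card_le_of_forall_pow_eq (ℓ ^ k) h1 hroot
  rw [hcard] at h2
  exact (Nat.pow_le_pow_iff_right hℓ.one_lt).mp h2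

theorem exists_frob_generator [IsCyclic (L ≃ₐ[E] L)] (T : Finset ℕ) :
    ∃ (w : Ideal (𝓞 L)) (ℓ : ℕ) (ψ : L ≃ₐ[E] L), w.IsPrime ∧ ℓ.Prime ∧ ℓ ∉ T ∧ (ℓ : 𝓞 L) ∈ w ∧
      (∀ x : 𝓞 L, ψ • x - x ^ ℓ ∈ w) ∧ ∀ g : L ≃ₐ[E] L, g ∈ Subgroup.zpowers ψ := by
  classical
  set N : ℕ := Ideal.absNorm (differentIdeal (𝓞 E) (𝓞 L)) * ∏ t ∈ T.filter Nat.Prime, t with hNdef
  have hN0 : N ≠ 0 := by
    refine mul_ne_zero ?_ (Finset.prod_ne_zero_iff.mpr fun t ht => (Finset.mem_filter.mp ht).2.ne_zero)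
    rw [Ne, Ideal.absNorm_eq_zero_iff]
    exact differentIdeal_ne_bot
  obtain ⟨v, hv1, hvx, hg⟩ := exists_inert E L (N : 𝓞 E) (by exact_mod_cast hN0)
  obtain ⟨w, hw⟩ : ∃ w : HeightOneSpectrum (𝓞 L), w.under (𝓞 E) = v := by
    have h := ncard_fiber E L v
    rw [hg] at h
    obtain ⟨w, hw⟩ := Set.nonempty_of_ncard_ne_zero (by rw [h]; exact one_ne_zero)
    exact ⟨w, hw⟩
  subst hw
  set ℓ := Ideal.absNorm (w.under (𝓞 E)).asIdeal with hℓdef
  have hℓ : ℓ.Prime := hv1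
  have hcast : ∀ m : ℕ, (m : 𝓞 L) ∈ w.asIdeal ↔ (m : 𝓞 E) ∈ (w.under (𝓞 E)).asIdeal := by
    intro m
    rw [HeightOneSpectrum.under_asIdeal, Ideal.under_def, Ideal.mem_comap, map_natCast]
  have hd : ¬ w.asIdeal ∣ differentIdeal (𝓞 E) (𝓞 L) := by
    intro hdvd
    apply hvx
    have h1 : ((Ideal.absNorm (differentIdeal (𝓞 E) (𝓞 L)) : ℕ) : 𝓞 L) ∈ w.asIdeal :=
      Ideal.le_of_dvd hdvd (Ideal.absNorm_mem _)
    rw [← hcast, hNdef]
    push_cast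
    exact Ideal.mul_mem_right _ _ h1
  have hNw := absNorm_eq_pow_of_gNum_eq_one E L w hg hd
  have hwp : w.asIdeal.IsPrime := w.isPrime
  have hfin : Finite (𝓞 L ⧸ w.asIdeal) := Ideal.finiteQuotientOfFreeOfNeBot _ w.ne_bot
  have hψ : IsArithFrobAt (𝓞 E) (arithFrobAt (𝓞 E) (L ≃ₐ[E] L) w.asIdeal) w.asIdeal :=
    IsArithFrobAt.arithFrobAt (𝓞 E) (L ≃ₐ[E] L) w.asIdeal
  set ψ := arithFrobAt (𝓞 E) (L ≃ₐ[E] L) w.asIdeal with hψdef
  have hcard : Nat.card (𝓞 E ⧸ w.asIdeal.under (𝓞 E)) = ℓ := by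
    rw [hℓdef, Ideal.absNorm_apply, Submodule.cardQuot_apply]
    rfl
  have hfrob : ∀ x : 𝓞 L, ψ • x - x ^ ℓ ∈ w.asIdeal := by
    intro x
    have := hψ x
    rw [hcard] at this
    exact this
  have hord := le_orderOf_of_frob E L w.asIdeal ℓ _ hℓ hNw ψ hfrob
  have hmemE : (ℓ : 𝓞 E) ∈ (w.under (𝓞 E)).asIdeal := Ideal.absNorm_mem _
  refine ⟨w.asIdeal, ℓ, ψ, hwp, hℓ, ?_, (hcast ℓ).mpr hmemE, hfrob, ?_⟩
  · intro hT
    apply hvx
    have h1 : ℓ ∣ N := Dvd.dvd.mul_left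
      (Finset.dvd_prod_of_mem (fun t => t) (Finset.mem_filter.mpr ⟨hT, hℓ⟩)) _
    exact Ideal.mem_of_dvd _ (Nat.cast_dvd_cast h1) hmemE
  · have hc : Nat.card (L ≃ₐ[E] L) = Module.finrank E L := IsGalois.card_aut_eq_finrank E L
    have h1 : orderOf ψ = Nat.card (L ≃ₐ[E] L) :=
      le_antisymm (orderOf_le_card) (hc ▸ hord)
    intro g
    have h2 : Subgroup.zpowers ψ = ⊤ := by
      apply Subgroup.eq_top_of_card_eq
      rw [Nat.card_zpowers, h1]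
    rw [h2]
    exact Subgroup.mem_top g

end Fermat.Agent.FD
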