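/-
FD / M6 : the Frobenius density theorem (existence form) for a finite Galois extension `L/ℚ`.
-/
import Fermat.Agent.Lib.FrobDensity.Frob

set_option autoImplicit false

namespace Fermat.Agent.FD

open NumberField IsDedekindDomain
open scoped NumberField

variable (L : Type) [Field L] [NumberField L]

omit [NumberField L] in
theorem under_int_eq_span (w : Ideal (𝓞 L)) [w.IsPrime] (ℓ : ℕ) (hℓ : ℓ.Prime)
    (hw : (ℓ : 𝓞 L) ∈ w) : w.under ℤ = Ideal.span {(ℓ : ℤ)} := by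
  have : Fact ℓ.Prime := ⟨hℓ⟩
  have hmax : (Ideal.span {(ℓ : ℤ)}).IsMaximal := Int.ideal_span_isMaximal_of_prime ℓ
  refine (hmax.eq_of_le (Ideal.IsPrime.ne_top inferInstance) ?_).symm
  rw [Ideal.span_singleton_le_iff_mem, Ideal.under_def, Ideal.mem_comap]
  simpa using hw

/-- uniqueness of Frobenius elements at primes not dividing the different -/
theorem frob_unique [IsGalois ℚ L] (w : Ideal (𝓞 L)) [w.IsPrime] (ℓ : ℕ) (hℓ : ℓ.Prime) (hw : (ℓ : 𝓞 L) ∈ w)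
    (hd : ¬ ℓ ∣ Ideal.absNorm (differentIdeal ℤ (𝓞 L))) (ψ ψ' : L ≃ₐ[ℚ] L)
    (h : ∀ x : 𝓞 L, ψ • x - x ^ ℓ ∈ w) (h' : ∀ x : 𝓞 L, ψ' • x - x ^ ℓ ∈ w) : ψ' = ψ := by
  have hunder := under_int_eq_span L w ℓ hℓ hw
  have hcard : Nat.card (ℤ ⧸ w.under ℤ) = ℓ := by
    rw [hunder]
    simp [Int.card_ideal_quot]
  have hun : Algebra.IsUnramifiedAt ℤ w := by
    rw [← not_dvd_differentIdeal_iff]
    intro hdvd
    have h1 : ((Ideal.absNorm (differentIdeal ℤ (𝓞 L)) : ℕ) : 𝓞 L) ∈ w :=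
      Ideal.le_of_dvd hdvd (Ideal.absNorm_mem _)
    have h2 : ((Ideal.absNorm (differentIdeal ℤ (𝓞 L)) : ℕ) : ℤ) ∈ w.under ℤ := by
      rw [Ideal.under_def, Ideal.mem_comap]
      simpa using h1
    rw [hunder, Ideal.mem_span_singleton] at h2
    exact hd (by exact_mod_cast h2)
  have H : IsArithFrobAt ℤ ψ w := fun x => by rw [hcard]; exact h x
  have H' : IsArithFrobAt ℤ ψ' w := fun x => by rw [hcard]; exact h' x
  have hQ : w.primeCompl ≤ nonZeroDivisors (𝓞 L) := by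
    intro x hx
    rw [mem_nonZeroDivisors_iff_ne_zero]
    rintro rfl
    exact hx w.zero_mem
  have key := AlgHom.IsArithFrobAt.eq_of_isUnramifiedAt H' H hQ
  have hf : FaithfulSMul (L ≃ₐ[ℚ] L) (𝓞 L) := IsGaloisGroup.faithful ℤ
  exact hf.eq_of_smul_eq_smul fun x => DFunLike.congr_fun key x

/-- **Frobenius density theorem**, existence form. -/
theorem frobenius_density [IsGalois ℚ L] (τ : L ≃ₐ[ℚ] L) (T : Finset ℕ) :
    ∃ (w : Ideal (𝓞 L)) (ℓ : ℕ) (ψ : L ≃ₐ[ℚ] L), w.IsPrime ∧ ℓ.Prime ∧ ℓ ∉ T ∧ (ℓ : 𝓞 L) ∈ w ∧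
      (∀ x : 𝓞 L, ψ • x - x ^ ℓ ∈ w) ∧
      (∀ ψ' : L ≃ₐ[ℚ] L, (∀ x : 𝓞 L, ψ' • x - x ^ ℓ ∈ w) → ψ' = ψ) ∧
      Subgroup.zpowers ψ = Subgroup.zpowers τ := by
  classical
  let E : IntermediateField ℚ L := IntermediateField.fixedField (Subgroup.zpowers τ)
  have hfix : E.fixingSubgroup = Subgroup.zpowers τ := IntermediateField.fixingSubgroup_fixedField _
  let e : E.fixingSubgroup ≃* (L ≃ₐ[E] L) := IntermediateField.fixingSubgroupEquiv E
  have hcyc : IsCyclic (L ≃ₐ[E] L) := by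
    have : IsCyclic E.fixingSubgroup := by rw [hfix]; infer_instance
    exact isCyclic_of_surjective e e.surjective
  obtain ⟨w, ℓ, ψ, hw, hℓ, hT, hmem, hfrob, hgen⟩ := exists_frob_generator E L
    (T ∪ (Ideal.absNorm (differentIdeal ℤ (𝓞 L))).primeFactors)
  rw [Finset.notMem_union] at hT
  have hN : Ideal.absNorm (differentIdeal ℤ (𝓞 L)) ≠ 0 := by
    rw [Ne, Ideal.absNorm_eq_zero_iff]
    exact differentIdeal_ne_bot
  have hd : ¬ ℓ ∣ Ideal.absNorm (differentIdeal ℤ (𝓞 L)) := fun h =>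
    hT.2 (Nat.mem_primeFactors.mpr ⟨hℓ, h, hN⟩)
  have hfrob' : ∀ x : 𝓞 L, ((e.symm ψ : E.fixingSubgroup) : L ≃ₐ[ℚ] L) • x - x ^ ℓ ∈ w :=
    fun x => hfrob x
  refine ⟨w, ℓ, ((e.symm ψ : E.fixingSubgroup) : L ≃ₐ[ℚ] L), hw, hℓ, hT.1, hmem, hfrob', ?_, ?_⟩
  · intro ψ' h'
    exact frob_unique L w ℓ hℓ hmem hd _ ψ' hfrob' h'
  · apply le_antisymm
    · rw [Subgroup.zpowers_le, ← hfix]
      exact (e.symm ψ).2
    · rw [Subgroup.zpowers_le]
      have hτ : τ ∈ E.fixingSubgroup := by rw [hfix]; exact Subgroup.mem_zpowers τ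
      obtain ⟨k, hk⟩ := Subgroup.mem_zpowers_iff.mp (hgen (e ⟨τ, hτ⟩))
      rw [Subgroup.mem_zpowers_iff]
      refine ⟨k, ?_⟩
      have h1 : (e.symm ψ) ^ k = ⟨τ, hτ⟩ := by
        rw [← map_zpow, hk, MulEquiv.symm_apply_apply]
      exact congrArg Subtype.val h1

end Fermat.Agent.FD
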