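/-
FD / M7 : the Frobenius density theorem for `Gal(Qbar/ℚ)` and the Prelude API
(`ValuationSubring.LiesOverPrime`, `ValuationSubring.IsFrobeniusAt`, `inertiaSubgroupIn`).
-/
import Fermat.Agent.Lib.FrobDensity.Classical
import Fermat.Agent.S54.Frobenius
import Fermat.Prelude.Def_EllipticCurve_FrobeniusTrace

set_option autoImplicit false

namespace Fermat.Agent.FD

open NumberField IsDedekindDomain
open scoped NumberField

/-- `Qbar` -/
abbrev Qb : Type := AlgebraicClosure ℚ

/-- `Gal(Qbar/ℚ)` -/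
abbrev GQ : Type := AlgebraicClosure ℚ ≃ₐ[ℚ] AlgebraicClosure ℚ

/-- every prime of the ring of integers of a number field inside `Qbar` is the centre of a
valuation subring of `Qbar`. -/
theorem exists_valuationSubring (L : IntermediateField ℚ Qb) [FiniteDimensional ℚ L]
    (w : Ideal (𝓞 L)) [w.IsPrime] (hw : w ≠ ⊥) :
    ∃ A : ValuationSubring Qb, ∀ x : 𝓞 L, x ∈ w ↔ (((x : L) : Qb)) ∈ A.nonunits := by
  have : NumberField L := { to_charZero := inferInstance, to_finiteDimensional := inferInstance }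
  have hmax : w.IsMaximal := Ring.DimensionLEOne.maximalOfPrime hw inferInstance
  let f : 𝓞 L →+* Qb := (algebraMap L Qb).comp (algebraMap (𝓞 L) L)
  have hf : Function.Injective f :=
    (algebraMap L Qb).injective.comp (RingOfIntegers.coe_injective)
  have hfr : Function.Surjective f.rangeRestrict := f.rangeRestrict_surjective
  have hI : Ideal.map f.rangeRestrict w ≠ ⊤ := by
    intro h
    have h1 : (1 : f.range) ∈ Ideal.map f.rangeRestrict w := by rw [h]; trivial
    rw [Ideal.mem_map_iff_of_surjective _ hfr] at h1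
    obtain ⟨y, hy, hy1⟩ := h1
    have h2 : f y = f 1 := by
      have := congrArg Subtype.val hy1
      simpa using this
    have h3 := hf h2
    exact hmax.ne_top ((Ideal.eq_top_iff_one _).mpr (h3 ▸ hy))
  obtain ⟨A, hA1, hA2⟩ := Ideal.image_subset_nonunits_valuationSubring _ hI
  refine ⟨A, fun x => ⟨fun hx => ?_, fun hx => ?_⟩⟩
  · exact hA2 ⟨f.rangeRestrict x, Ideal.mem_map_of_mem _ hx, rfl⟩
  · by_contra hxw
    obtain ⟨y, z, hz, hyz⟩ := hmax.exists_inv hxw
    have h1 : f y * f x + f z = 1 := by rw [← map_mul, ← map_add, hyz, map_one]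
    have h2 : f z ∈ A.nonunits := hA2 ⟨f.rangeRestrict z, Ideal.mem_map_of_mem _ hz, rfl⟩
    have h3 : f y ∈ A := hA1 ⟨y, rfl⟩
    have h4 : f x * f y ∈ A.nonunits := Fermat.Agent.S54.nonunits_mul_mem A hx h3
    have h5 : (1 : Qb) ∈ A.nonunits := by
      rw [← h1, mul_comm]
      exact A.nonunits.add_mem h4 h2
    exact Fermat.Agent.S54.one_not_mem_nonunits A h5

/-- a Frobenius element at `A` restricts to a Frobenius element at the centre of `A` on `𝓞 L`. -/
theorem restrict_frob (L : IntermediateField ℚ Qb) [FiniteDimensional ℚ L] [IsGalois ℚ L]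
    (w : Ideal (𝓞 L)) (A : ValuationSubring Qb)
    (hA : ∀ x : 𝓞 L, x ∈ w ↔ (((x : L) : Qb)) ∈ A.nonunits) (ℓ : ℕ) (φ : GQ)
    (hφ : A.IsFrobeniusAt φ ℓ) (x : 𝓞 L) :
    (AlgEquiv.restrictNormalHom L φ) • x - x ^ ℓ ∈ w := by
  rw [hA]
  obtain ⟨hdec, hfr⟩ := hφ
  have hxint : IsIntegral ℤ (((x : L) : Qb)) := by
    have h1 : IsIntegral ℤ (x : L) := x.2
    exact h1.map (IsScalarTower.toAlgHom ℤ L Qb)
  let a : A := ⟨((x : L) : Qb), Fermat.Agent.S54.mem_of_isIntegral A hxint⟩
  have h1 := hfr (IsLocalRing.residue A a)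
  rw [← IsLocalRing.ResidueField.residue_smul, ← map_pow, ← sub_eq_zero, ← map_sub,
      IsLocalRing.residue_eq_zero_iff, ← ValuationSubring.coe_mem_nonunits_iff] at h1
  have h2 : ((((AlgEquiv.restrictNormalHom L φ) • x - x ^ ℓ : 𝓞 L) : L) : Qb) =
      (((⟨φ, hdec⟩ : A.decompositionSubgroup ℚ) • a - a ^ ℓ : A) : Qb) := by
    have h3 : (((AlgEquiv.restrictNormalHom L φ) • x : 𝓞 L) : L) =
      (AlgEquiv.restrictNormalHom L φ) (x : L) := rfl
    have h4 : (((AlgEquiv.restrictNormalHom L φ) (x : L) : L) : Qb) = φ ((x : L) : Qb) :=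
      AlgEquiv.restrictNormal_commutes φ L (x : L)
    have h5 : (((⟨φ, hdec⟩ : A.decompositionSubgroup ℚ) • a : A) : Qb) = φ ((x : L) : Qb) := rfl
    push_cast
    rw [AlgEquiv.smul_def, h4, h5]
  rw [h2]
  exact h1

/-- a Frobenius element times an inertia element is a Frobenius element -/
theorem isFrobeniusAt_mul_inertia (A : ValuationSubring Qb) (ℓ : ℕ) (φ ι : GQ)
    (hφ : A.IsFrobeniusAt φ ℓ) (hι : ι ∈ A.inertiaSubgroupIn ℚ) : A.IsFrobeniusAt (φ * ι) ℓ := by
  obtain ⟨hdec, hfr⟩ := hφ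
  obtain ⟨ι', hι', rfl⟩ := hι
  refine ⟨(A.decompositionSubgroup ℚ).mul_mem hdec ι'.2, fun x => ?_⟩
  have h1 : ι' • x = x := by
    have := MonoidHom.mem_ker.mp hι'
    have h2 := congrArg (fun f : RingAut _ => f x) this
    exact h2
  have h2 : (⟨φ * (A.decompositionSubgroup ℚ).subtype ι',
      (A.decompositionSubgroup ℚ).mul_mem hdec ι'.2⟩ : A.decompositionSubgroup ℚ) =
      (⟨φ, hdec⟩ : A.decompositionSubgroup ℚ) * ι' := rfl
  rw [h2, mul_smul, h1, hfr]

attribute [local instance] Fermat.Agent.S54.isAlgClosure_Qbar in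
/-- an open normal subgroup is the fixing subgroup of a finite Galois extension -/
theorem exists_field_of_open (U : Subgroup GQ) [U.Normal] (hU : IsOpen (U : Set GQ)) :
    ∃ L : IntermediateField ℚ Qb, FiniteDimensional ℚ L ∧ IsGalois ℚ L ∧
      L.fixingSubgroup = U := by
  have hcl : IsClosed (U : Set GQ) := U.isClosed_of_isOpen hU
  have h1 : (IntermediateField.fixedField U).fixingSubgroup = U :=
    InfiniteGalois.fixingSubgroup_fixedField (⟨U, hcl⟩ : ClosedSubgroup GQ)
  refine ⟨IntermediateField.fixedField U, ?_, ?_, h1⟩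
  · rw [← InfiniteGalois.isOpen_iff_finite, h1]
    exact hU
  · have h2 : (IntermediateField.fixedField U).fixingSubgroup.Normal := by
      rw [h1]; infer_instance
    have h3 := (InfiniteGalois.normal_iff_isGalois _).mp h2
    convert h3
    exact Subsingleton.elim _ _

/-- **Frobenius density theorem** for `Gal(Qbar/ℚ)`: for every open normal subgroup `U`, every
`σ` and every finite set `T` there are a prime `ℓ ∉ T` and a place `A` of `Qbar` over `ℓ`,
unramified modulo `U`, such that every Frobenius element `φ` at `A` generates modulo `U` the same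
cyclic subgroup as `σ`. -/
theorem exists_place (U : Subgroup GQ) [U.Normal] (hU : IsOpen (U : Set GQ)) (σ : GQ)
    (T : Finset ℕ) :
    ∃ (ℓ : ℕ) (A : ValuationSubring Qb), ℓ.Prime ∧ ℓ ∉ T ∧ A.LiesOverPrime ℓ ∧
      A.inertiaSubgroupIn ℚ ≤ U ∧
      ∀ φ : GQ, A.IsFrobeniusAt φ ℓ →
        (∃ k : ℕ, φ⁻¹ * σ ^ k ∈ U) ∧ (∃ j : ℕ, σ⁻¹ * φ ^ j ∈ U) := by
  obtain ⟨L, hfd, hgal, hLU⟩ := exists_field_of_open U hU
  have : NumberField L := { to_charZero := inferInstance, to_finiteDimensional := inferInstance }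
  have hnor : Normal ℚ L := hgal.to_normal
  obtain ⟨w, ℓ, ψ, hwp, hℓ, hT, hℓw, hψ, huniq, hz⟩ :=
    frobenius_density L (AlgEquiv.restrictNormalHom L σ) T
  have hw0 : w ≠ ⊥ := by
    rintro rfl
    rw [Ideal.mem_bot] at hℓw
    exact hℓ.ne_zero (by exact_mod_cast hℓw)
  obtain ⟨A, hA⟩ := exists_valuationSubring L w hw0
  have hlies : A.LiesOverPrime ℓ := by
    have h := (hA ℓ).mp hℓw
    have h' : ((ℓ : ℕ) : Qb) ∈ A.nonunits := by simpa using h
    exact h'
  have hres : ∀ φ : GQ, A.IsFrobeniusAt φ ℓ → AlgEquiv.restrictNormalHom L φ = ψ :=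
    fun φ hφ => huniq _ (restrict_frob L w A hA ℓ φ hφ)
  have hker : ∀ g : GQ, AlgEquiv.restrictNormalHom L g = 1 ↔ g ∈ U := by
    intro g
    rw [← hLU, IntermediateField.mem_fixingSubgroup_iff]
    constructor
    · intro h x hx
      have h1 : (((AlgEquiv.restrictNormalHom L g) (⟨x, hx⟩ : L) : L) : Qb) = g x :=
        AlgEquiv.restrictNormal_commutes g L (⟨x, hx⟩ : L)
      rw [h] at h1
      exact h1.symm
    · intro h
      ext x
      have h1 : (((AlgEquiv.restrictNormalHom L g) x : L) : Qb) = g (x : Qb) :=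
        AlgEquiv.restrictNormal_commutes g L x
      rw [h1]
      exact h x x.2
  refine ⟨ℓ, A, hℓ, hT, hlies, ?_, ?_⟩
  · intro ι hι
    obtain ⟨φ, hφ⟩ := Fermat.Agent.S54.exists_isFrobeniusAt ℓ hℓ A hlies
    have h1 := hres φ hφ
    have h2 := hres (φ * ι) (isFrobeniusAt_mul_inertia A ℓ φ ι hφ hι)
    rw [map_mul, h1] at h2
    exact (hker ι).mp (mul_eq_left.mp h2)
  · intro φ hφ
    have h1 := hres φ hφ
    have h2 : ψ ∈ Subgroup.zpowers (AlgEquiv.restrictNormalHom L σ) :=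
      hz ▸ Subgroup.mem_zpowers ψ
    have h3 : AlgEquiv.restrictNormalHom L σ ∈ Subgroup.zpowers ψ :=
      hz.symm ▸ Subgroup.mem_zpowers _
    rw [← mem_powers_iff_mem_zpowers] at h2 h3
    obtain ⟨k, hk⟩ := h2
    obtain ⟨j, hj⟩ := h3
    refine ⟨⟨k, ?_⟩, ⟨j, ?_⟩⟩
    · rw [← hker, map_mul, map_inv, map_pow, h1]
      have hk' : (AlgEquiv.restrictNormalHom L σ) ^ k = ψ := hk
      rw [hk', inv_mul_cancel]
    · rw [← hker, map_mul, map_inv, map_pow, h1]
      have hj' : ψ ^ j = AlgEquiv.restrictNormalHom L σ := hj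
      rw [hj', inv_mul_cancel]

end Fermat.Agent.FD
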