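/-
FD : user-facing statements.
-/
import Fermat.Agent.Lib.FrobDensity.Bridge

set_option autoImplicit false

namespace Fermat.Agent.FD

/-- **Frobenius density theorem** (existence form), with a chosen Frobenius element. -/
theorem exists_frobenius (U : Subgroup GQ) [U.Normal] (hU : IsOpen (U : Set GQ)) (σ : GQ)
    (T : Finset ℕ) :
    ∃ (ℓ : ℕ) (A : ValuationSubring Qb) (φ : GQ), ℓ.Prime ∧ ℓ ∉ T ∧ A.LiesOverPrime ℓ ∧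
      A.IsFrobeniusAt φ ℓ ∧ A.inertiaSubgroupIn ℚ ≤ U ∧
      (∃ k : ℕ, φ⁻¹ * σ ^ k ∈ U) ∧ (∃ j : ℕ, σ⁻¹ * φ ^ j ∈ U) := by
  obtain ⟨ℓ, A, hℓ, hT, hA, hI, h⟩ := exists_place U hU σ T
  obtain ⟨φ, hφ⟩ := Fermat.Agent.S54.exists_isFrobeniusAt ℓ hℓ A hA
  exact ⟨ℓ, A, φ, hℓ, hT, hA, hφ, hI, h φ hφ⟩

/-- Version for a homomorphism with open kernel (e.g. a continuous homomorphism to a discrete
group). -/
theorem exists_frobenius_hom {H : Type*} [Group H] (ρ : GQ →* H)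
    (hρ : IsOpen (ρ.ker : Set GQ)) (σ : GQ) (T : Finset ℕ) :
    ∃ (ℓ : ℕ) (A : ValuationSubring Qb) (φ : GQ), ℓ.Prime ∧ ℓ ∉ T ∧ A.LiesOverPrime ℓ ∧
      A.IsFrobeniusAt φ ℓ ∧ (∀ ι ∈ A.inertiaSubgroupIn ℚ, ρ ι = 1) ∧
      (∃ k : ℕ, ρ φ = ρ σ ^ k) ∧ (∃ j : ℕ, ρ σ = ρ φ ^ j) := by
  obtain ⟨ℓ, A, φ, hℓ, hT, hA, hφ, hI, ⟨k, hk⟩, ⟨j, hj⟩⟩ := exists_frobenius ρ.ker hρ σ T
  refine ⟨ℓ, A, φ, hℓ, hT, hA, hφ, fun ι hι => hI hι, ⟨k, ?_⟩, ⟨j, ?_⟩⟩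
  · rw [MonoidHom.mem_ker, map_mul, map_inv, map_pow, inv_mul_eq_one] at hk
    exact hk
  · rw [MonoidHom.mem_ker, map_mul, map_inv, map_pow, inv_mul_eq_one] at hj
    exact hj

end Fermat.Agent.FD
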