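/-
FD : applications of the Frobenius density theorem to the Prelude's Galois representations
(`GaloisFactorsThroughFiniteLevel`, `ResidualGaloisRep`, `GaloisRepAdic`).
-/
import Fermat.Agent.Lib.FrobDensity.Main
import Fermat.Prelude.Def_GaloisRep_Adic

set_option autoImplicit false

namespace Fermat.Agent.FD

open Polynomial TensorProduct

section Rank2

variable {R : Type*} [CommRing R] {V : Type*} [AddCommGroup V] [Module R V]
  [Module.Free R V] [Module.Finite R V]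

/-- the characteristic polynomial of an endomorphism of a free module of rank two -/
theorem charpoly_rank_two [Nontrivial R] (hV : Module.finrank R V = 2) (f : Module.End R V) :
    LinearMap.charpoly f = X ^ 2 - C (LinearMap.trace R V f) * X + C (LinearMap.det f) := by
  let b := Module.finBasisOfFinrankEq R V hV
  rw [← LinearMap.charpoly_toMatrix f b, Matrix.charpoly_fin_two,
    LinearMap.trace_eq_matrix_trace R b f, ← LinearMap.det_toMatrix b f]

theorem trace_eq_of_charpoly_eq [Nontrivial R] {V' : Type*} [AddCommGroup V'] [Module R V']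
    [Module.Free R V'] [Module.Finite R V'] (hV : Module.finrank R V = 2)
    (hV' : Module.finrank R V' = 2) (f : Module.End R V) (g : Module.End R V')
    (h : LinearMap.charpoly f = LinearMap.charpoly g) :
    LinearMap.trace R V f = LinearMap.trace R V' g ∧ LinearMap.det f = LinearMap.det g := by
  rw [charpoly_rank_two hV, charpoly_rank_two hV'] at h
  constructor
  · have := congrArg (fun p => p.coeff 1) h
    simpa [coeff_X, coeff_C] using this
  · have := congrArg (fun p => p.coeff 0) h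
    simpa [coeff_X, coeff_C] using this

theorem trace_pow_rec [Nontrivial R] (hV : Module.finrank R V = 2) (f : Module.End R V) (j : ℕ) :
    LinearMap.trace R V (f ^ (j + 2)) =
      LinearMap.trace R V f * LinearMap.trace R V (f ^ (j + 1)) -
        LinearMap.det f * LinearMap.trace R V (f ^ j) := by
  have h := LinearMap.aeval_self_charpoly f
  rw [charpoly_rank_two hV] at h
  simp only [map_add, map_sub, map_mul, map_pow, aeval_X, aeval_C] at h
  have h2 : f ^ 2 = LinearMap.trace R V f • f - LinearMap.det f • (1 : Module.End R V) := by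
    rw [← sub_eq_zero, ← h]
    simp only [Algebra.algebraMap_eq_smul_one, smul_mul_assoc, one_mul]
    abel
  have h3 : f ^ (j + 2) = LinearMap.trace R V f • f ^ (j + 1) - LinearMap.det f • f ^ j := by
    rw [pow_add, h2, mul_sub, mul_smul_comm, mul_smul_comm, mul_one, ← pow_succ]
  rw [h3, map_sub, map_smul, map_smul, smul_eq_mul, smul_eq_mul]

theorem charpoly_pow_eq {V' : Type*} [AddCommGroup V'] [Module R V']
    [Module.Free R V'] [Module.Finite R V'] (hV : Module.finrank R V = 2)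
    (hV' : Module.finrank R V' = 2) (f : Module.End R V) (g : Module.End R V')
    (h : LinearMap.charpoly f = LinearMap.charpoly g) (j : ℕ) :
    LinearMap.charpoly (f ^ j) = LinearMap.charpoly (g ^ j) := by
  nontriviality R
  obtain ⟨ht, hd⟩ := trace_eq_of_charpoly_eq hV hV' f g h
  have key : ∀ j : ℕ, LinearMap.trace R V (f ^ j) = LinearMap.trace R V' (g ^ j) ∧
      LinearMap.trace R V (f ^ (j + 1)) = LinearMap.trace R V' (g ^ (j + 1)) := by
    intro j
    induction j with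
    | zero =>
      refine ⟨?_, by simpa using ht⟩
      simp [LinearMap.trace_one, hV, hV', pow_zero]
    | succ j ih =>
      refine ⟨ih.2, ?_⟩
      rw [trace_pow_rec hV, trace_pow_rec hV', ht, hd, ih.1, ih.2]
  rw [charpoly_rank_two hV, charpoly_rank_two hV', (key j).1, map_pow LinearMap.det,
    map_pow LinearMap.det, hd]

end Rank2

attribute [local instance] Fermat.Agent.S54.isAlgClosure_Qbar

/-- **Frobenius density**, version for a number field `L ⊆ Qbar` (not necessarily normal): the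
subgroup `U` fixes `L` pointwise. -/
theorem exists_frobenius_field (L : IntermediateField ℚ Qb) [FiniteDimensional ℚ L] (σ : GQ)
    (T : Finset ℕ) :
    ∃ (ℓ : ℕ) (A : ValuationSubring Qb) (φ : GQ) (U : Subgroup GQ), ℓ.Prime ∧ ℓ ∉ T ∧
      A.LiesOverPrime ℓ ∧ A.IsFrobeniusAt φ ℓ ∧ (∀ u ∈ U, ∀ x ∈ L, u x = x) ∧
      A.inertiaSubgroupIn ℚ ≤ U ∧ (∃ k : ℕ, φ⁻¹ * σ ^ k ∈ U) ∧ (∃ j : ℕ, σ⁻¹ * φ ^ j ∈ U) := by
  let N : IntermediateField ℚ Qb := IntermediateField.normalClosure ℚ L Qb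
  have hnormal : N.fixingSubgroup.Normal := by
    rw [← IntermediateField.restrictNormalHom_ker]
    infer_instance
  have hopen : IsOpen (N.fixingSubgroup : Set GQ) := N.fixingSubgroup_isOpen
  obtain ⟨ℓ, A, φ, h1, h2, h3, h4, h5, h6, h7⟩ := exists_frobenius N.fixingSubgroup hopen σ T
  refine ⟨ℓ, A, φ, N.fixingSubgroup, h1, h2, h3, h4, ?_, h5, h6, h7⟩
  intro u hu x hx
  exact (IntermediateField.mem_fixingSubgroup_iff N u).mp hu x (L.le_normalClosure hx)

/-- **Frobenius density** for a homomorphism to a monoid which factors through a finite level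
(the Prelude's `GaloisFactorsThroughFiniteLevel`). -/
theorem exists_frobenius_of_finiteLevel {M : Type} [Monoid M] (ρ : GQ →* M)
    (h : GaloisFactorsThroughFiniteLevel ρ) (σ : GQ) (T : Finset ℕ) :
    ∃ (ℓ : ℕ) (A : ValuationSubring Qb) (φ : GQ), ℓ.Prime ∧ ℓ ∉ T ∧ A.LiesOverPrime ℓ ∧
      A.IsFrobeniusAt φ ℓ ∧ (∀ ι ∈ A.inertiaSubgroupIn ℚ, ρ ι = 1) ∧
      (∃ k : ℕ, ρ φ = ρ σ ^ k) ∧ (∃ j : ℕ, ρ σ = ρ φ ^ j) := by
  obtain ⟨L, hL, hρ⟩ := h
  obtain ⟨ℓ, A, φ, U, h1, h2, h3, h4, hU, h5, ⟨k, hk⟩, ⟨j, hj⟩⟩ := exists_frobenius_field L σ T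
  have hU1 : ∀ u ∈ U, ρ u = 1 := fun u hu => hρ u (hU u hu)
  refine ⟨ℓ, A, φ, h1, h2, h3, h4, fun ι hι => hU1 ι (h5 hι), ⟨k, ?_⟩, ⟨j, ?_⟩⟩
  · have e : σ ^ k = φ * (φ⁻¹ * σ ^ k) := by group
    rw [← map_pow, e, map_mul, hU1 _ hk, mul_one]
  · have e : φ ^ j = σ * (σ⁻¹ * φ ^ j) := by group
    rw [← map_pow, e, map_mul, hU1 _ hj, mul_one]

theorem factorsThroughFiniteLevel_prod {M₁ M₂ : Type} [Monoid M₁] [Monoid M₂] (ρ₁ : GQ →* M₁)
    (ρ₂ : GQ →* M₂) (h₁ : GaloisFactorsThroughFiniteLevel ρ₁)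
    (h₂ : GaloisFactorsThroughFiniteLevel ρ₂) : GaloisFactorsThroughFiniteLevel (ρ₁.prod ρ₂) := by
  obtain ⟨L₁, hL₁, hρ₁⟩ := h₁
  obtain ⟨L₂, hL₂, hρ₂⟩ := h₂
  refine ⟨L₁ ⊔ L₂, inferInstance, fun σ hσ => ?_⟩
  rw [MonoidHom.prod_apply, hρ₁ σ fun x hx => hσ x ((le_sup_left : L₁ ≤ L₁ ⊔ L₂) hx),
    hρ₂ σ fun x hx => hσ x ((le_sup_right : L₂ ≤ L₁ ⊔ L₂) hx)]
  rfl

/-- Two residual representations whose Frobenius characteristic polynomials agree outside a finite
set of primes have the same characteristic polynomials everywhere. -/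
theorem residual_charpoly_eq {k : Type} [Field k] (ρ₁ ρ₂ : ResidualGaloisRep k) (T : Finset ℕ)
    (h : ∀ ℓ : ℕ, ℓ.Prime → ℓ ∉ T → ∀ A : ValuationSubring Qb, A.LiesOverPrime ℓ →
      ∀ φ : GQ, A.IsFrobeniusAt φ ℓ →
        LinearMap.charpoly (ρ₁.ρ φ) = LinearMap.charpoly (ρ₂.ρ φ)) (σ : GQ) :
    LinearMap.charpoly (ρ₁.ρ σ) = LinearMap.charpoly (ρ₂.ρ σ) := by
  obtain ⟨ℓ, A, φ, h1, h2, h3, h4, -, -, ⟨j, hj⟩⟩ :=
    exists_frobenius_of_finiteLevel (ρ₁.ρ.prod ρ₂.ρ)
      (factorsThroughFiniteLevel_prod _ _ ρ₁.factorsThroughFiniteLevel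
        ρ₂.factorsThroughFiniteLevel) σ T
  have e1 : ρ₁.ρ σ = ρ₁.ρ φ ^ j := congrArg Prod.fst hj
  have e2 : ρ₂.ρ σ = ρ₂.ρ φ ^ j := congrArg Prod.snd hj
  rw [e1, e2]
  exact charpoly_pow_eq ρ₁.finrank_eq ρ₂.finrank_eq _ _ (h ℓ h1 h2 A h3 φ h4) j

/-- endomorphisms which are congruent modulo `I` have the same base change to `R ⧸ I`. -/
theorem baseChange_quotient_eq {R : Type*} [CommRing R] (I : Ideal R) {V : Type*} [AddCommGroup V]
    [Module R V] (f g : Module.End R V) (h : ∀ v, f v - g v ∈ I • (⊤ : Submodule R V)) :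
    LinearMap.baseChange (R ⧸ I) f = LinearMap.baseChange (R ⧸ I) g := by
  have hkill : ∀ x ∈ I • (⊤ : Submodule R V), ∀ c : R ⧸ I, c ⊗ₜ[R] x = 0 := by
    intro x hx c
    refine Submodule.smul_induction_on (p := fun x => c ⊗ₜ[R] x = (0 : (R ⧸ I) ⊗[R] V)) hx ?_ ?_
    · intro a ha w _
      rw [TensorProduct.tmul_smul, TensorProduct.smul_tmul', Algebra.smul_def,
        Ideal.Quotient.algebraMap_eq, Ideal.Quotient.eq_zero_iff_mem.mpr ha, zero_mul,
        TensorProduct.zero_tmul]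
    · intro x y hx hy
      rw [TensorProduct.tmul_add, hx, hy, add_zero]
  refine LinearMap.ext fun w => ?_
  induction w using TensorProduct.induction_on with
  | zero => rw [map_zero, map_zero]
  | tmul c v =>
    rw [LinearMap.baseChange_tmul, LinearMap.baseChange_tmul, ← sub_eq_zero,
      ← TensorProduct.tmul_sub]
    exact hkill _ (h v) c
  | add x y hx hy => rw [map_add, map_add, hx, hy]

theorem charpoly_map_quotient_eq {R : Type*} [CommRing R] (I : Ideal R) {V : Type*}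
    [AddCommGroup V] [Module R V] [Module.Free R V] [Module.Finite R V] (f g : Module.End R V)
    (h : ∀ v, f v - g v ∈ I • (⊤ : Submodule R V)) :
    (LinearMap.charpoly f).map (Ideal.Quotient.mk I) =
      (LinearMap.charpoly g).map (Ideal.Quotient.mk I) := by
  have h1 := LinearMap.charpoly_baseChange (A := R ⧸ I) f
  have h2 := LinearMap.charpoly_baseChange (A := R ⧸ I) g
  rw [baseChange_quotient_eq I f g h, h2] at h1
  exact h1.symm

/-- Two adic representations whose Frobenius characteristic polynomials agree outside a finite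
set of primes have the same characteristic polynomials everywhere. -/
theorem adic_charpoly_eq {A : Type} [CommRing A] [IsLocalRing A]
    (hA : ⨅ n : ℕ, IsLocalRing.maximalIdeal A ^ n = ⊥) (ρ₁ ρ₂ : GaloisRepAdic A) (T : Finset ℕ)
    (h : ∀ ℓ : ℕ, ℓ.Prime → ℓ ∉ T → ∀ P : ValuationSubring Qb, P.LiesOverPrime ℓ →
      ∀ φ : GQ, P.IsFrobeniusAt φ ℓ →
        LinearMap.charpoly (ρ₁.ρ φ) = LinearMap.charpoly (ρ₂.ρ φ)) (σ : GQ) :
    LinearMap.charpoly (ρ₁.ρ σ) = LinearMap.charpoly (ρ₂.ρ σ) := by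
  have key : ∀ n : ℕ, (LinearMap.charpoly (ρ₁.ρ σ)).map
      (Ideal.Quotient.mk (IsLocalRing.maximalIdeal A ^ n)) =
      (LinearMap.charpoly (ρ₂.ρ σ)).map (Ideal.Quotient.mk (IsLocalRing.maximalIdeal A ^ n)) := by
    intro n
    obtain ⟨L₁, hL₁, hρ₁⟩ := ρ₁.isAdicContinuous n
    obtain ⟨L₂, hL₂, hρ₂⟩ := ρ₂.isAdicContinuous n
    obtain ⟨ℓ, P, φ, U, h1, h2, h3, h4, hU, -, -, ⟨j, hj⟩⟩ := exists_frobenius_field (L₁ ⊔ L₂) σ T
    obtain ⟨u, hu, e⟩ : ∃ u ∈ U, φ ^ j = σ * u := ⟨σ⁻¹ * φ ^ j, hj, by group⟩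
    have c1 : ∀ v, (ρ₁.ρ φ ^ j) v - ρ₁.ρ σ v ∈
        (IsLocalRing.maximalIdeal A ^ n) • (⊤ : Submodule A ρ₁.V) := by
      intro v
      have h5 := hρ₁ u (fun x hx => hU u hu x ((le_sup_left : L₁ ≤ L₁ ⊔ L₂) hx)) v
      have h6 : (ρ₁.ρ φ ^ j) v - ρ₁.ρ σ v = ρ₁.ρ σ (ρ₁.ρ u v - v) := by
        rw [← map_pow, e, map_mul, map_sub]
        rfl
      rw [h6]
      exact Submodule.smul_top_le_comap_smul_top _ (ρ₁.ρ σ) h5
    have c2 : ∀ v, (ρ₂.ρ φ ^ j) v - ρ₂.ρ σ v ∈
        (IsLocalRing.maximalIdeal A ^ n) • (⊤ : Submodule A ρ₂.V) := by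
      intro v
      have h5 := hρ₂ u (fun x hx => hU u hu x ((le_sup_right : L₂ ≤ L₁ ⊔ L₂) hx)) v
      have h6 : (ρ₂.ρ φ ^ j) v - ρ₂.ρ σ v = ρ₂.ρ σ (ρ₂.ρ u v - v) := by
        rw [← map_pow, e, map_mul, map_sub]
        rfl
      rw [h6]
      exact Submodule.smul_top_le_comap_smul_top _ (ρ₂.ρ σ) h5
    rw [← charpoly_map_quotient_eq _ _ _ c1, ← charpoly_map_quotient_eq _ _ _ c2,
      charpoly_pow_eq ρ₁.finrank_eq ρ₂.finrank_eq _ _ (h ℓ h1 h2 P h3 φ h4) j]
  ext i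
  rw [← sub_eq_zero, ← Ideal.mem_bot, ← hA, Ideal.mem_iInf]
  intro n
  rw [← Ideal.Quotient.eq]
  have := congrArg (fun p => p.coeff i) (key n)
  simpa [coeff_map] using this

end Fermat.Agent.FD
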