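/-
FD : the hypothesis `FrobPowerDensity` of the ES project (Fermat/Agent/ES/D/Defs.lean).
-/
import Fermat.Agent.Lib.FrobDensity.Apps
import Fermat.Agent.ES.D.Defs

set_option autoImplicit false

namespace Fermat.Agent.FD

theorem frobPowerDensity : Fermat.Agent.ES.D.FrobPowerDensity := by
  intro L hL σ S
  obtain ⟨ℓ, A, φ, U, h1, h2, h3, h4, hU, -, -, ⟨j, hj⟩⟩ := exists_frobenius_field L σ S
  refine ⟨ℓ, A, φ, j, h1, h2, h3, h4, fun x hx => ?_⟩
  have e : φ ^ j = σ * (σ⁻¹ * φ ^ j) := by group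
  rw [e, AlgEquiv.mul_apply, hU _ hj x hx]

end Fermat.Agent.FD
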